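/-
[PROFIN] (helper15): uniform "level cohomology" API.

A *level structure* on an abstract group `G` is a directed family of normal subgroups of finite
index.  Level cochains are the functions `G^n → M` that are constant modulo some level; they form
a subcomplex of the inhomogeneous cochains (for smooth `M`), whose cohomology `H0, H1, H2` is the
cohomology of the profinite completion of `G` along the level structure with coefficients in the
discrete module `M`.  The Prelude objects `continuousH1S`, `continuousH2S`, `continuousH2 r`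
are instances (see `Global.lean`, `Local.lean`).
-/
import Mathlib

set_option autoImplicit false

universe u

open CategoryTheory groupCohomology

namespace Fermat.Agent.S55.Profin15

/-- A level structure: a nonempty, downward directed family of normal finite-index subgroups. -/
structure LevelStr (G : Type u) [Group G] where
  /-- the levels -/
  levels : Set (Subgroup G)
  nonempty : levels.Nonempty
  normal : ∀ U ∈ levels, U.Normal
  finiteIndex : ∀ U ∈ levels, U.FiniteIndex
  directed : ∀ U ∈ levels, ∀ V ∈ levels, ∃ W ∈ levels, W ≤ U ⊓ V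

namespace LevelStr

variable {G : Type u} [Group G] (𝒰 : LevelStr G)

/-- `f : G → X` is constant modulo some level (on the right). -/
def IsConst₁ {X : Type*} (f : G → X) : Prop :=
  ∃ U ∈ 𝒰.levels, ∀ g s, s ∈ U → f (g * s) = f g

/-- `f : G × G → X` is constant modulo some level in both variables. -/
def IsConst₂ {X : Type*} (f : G × G → X) : Prop :=
  ∃ U ∈ 𝒰.levels, ∀ g g' s s', s ∈ U → s' ∈ U → f (g * s, g' * s') = f (g, g')

/-- `f : G × G × G → X` is constant modulo some level in all variables. -/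
def IsConst₃ {X : Type*} (f : G × G × G → X) : Prop :=
  ∃ U ∈ 𝒰.levels, ∀ g g' g'' s s' s'', s ∈ U → s' ∈ U → s'' ∈ U →
    f (g * s, g' * s', g'' * s'') = f (g, g', g'')

variable {𝒰}

lemma IsConst₁.exists_le {X : Type*} {f : G → X} (hf : 𝒰.IsConst₁ f) {V : Subgroup G}
    (hV : V ∈ 𝒰.levels) : ∃ W ∈ 𝒰.levels, W ≤ V ∧ ∀ g s, s ∈ W → f (g * s) = f g := by
  obtain ⟨U, hU, h⟩ := hf
  obtain ⟨W, hW, hle⟩ := 𝒰.directed U hU V hV
  exact ⟨W, hW, hle.trans inf_le_right, fun g s hs => h g s (hle.trans inf_le_left hs)⟩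

lemma IsConst₂.exists_le {X : Type*} {f : G × G → X} (hf : 𝒰.IsConst₂ f) {V : Subgroup G}
    (hV : V ∈ 𝒰.levels) : ∃ W ∈ 𝒰.levels, W ≤ V ∧
      ∀ g g' s s', s ∈ W → s' ∈ W → f (g * s, g' * s') = f (g, g') := by
  obtain ⟨U, hU, h⟩ := hf
  obtain ⟨W, hW, hle⟩ := 𝒰.directed U hU V hV
  exact ⟨W, hW, hle.trans inf_le_right,
    fun g g' s s' hs hs' => h g g' s s' (hle.trans inf_le_left hs) (hle.trans inf_le_left hs')⟩

lemma IsConst₁.add {X : Type*} [Add X] {f f' : G → X} (hf : 𝒰.IsConst₁ f)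
    (hf' : 𝒰.IsConst₁ f') : 𝒰.IsConst₁ (f + f') := by
  obtain ⟨U, hU, h⟩ := hf
  obtain ⟨W, hW, hle, h'⟩ := hf'.exists_le hU
  exact ⟨W, hW, fun g s hs => by simp only [Pi.add_apply, h g s (hle hs), h' g s hs]⟩

lemma IsConst₂.add {X : Type*} [Add X] {f f' : G × G → X} (hf : 𝒰.IsConst₂ f)
    (hf' : 𝒰.IsConst₂ f') : 𝒰.IsConst₂ (f + f') := by
  obtain ⟨U, hU, h⟩ := hf
  obtain ⟨W, hW, hle, h'⟩ := hf'.exists_le hU
  exact ⟨W, hW, fun g g' s s' hs hs' => by
    simp only [Pi.add_apply, h g g' s s' (hle hs) (hle hs'), h' g g' s s' hs hs']⟩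

lemma isConst₁_const {X : Type*} (x : X) : 𝒰.IsConst₁ (fun _ : G => x) := by
  obtain ⟨U, hU⟩ := 𝒰.nonempty
  exact ⟨U, hU, fun _ _ _ => rfl⟩

lemma isConst₂_const {X : Type*} (x : X) : 𝒰.IsConst₂ (fun _ : G × G => x) := by
  obtain ⟨U, hU⟩ := 𝒰.nonempty
  exact ⟨U, hU, fun _ _ _ _ _ _ => rfl⟩

lemma IsConst₁.comp {X Y : Type*} {f : G → X} (hf : 𝒰.IsConst₁ f) (φ : X → Y) :
    𝒰.IsConst₁ (φ ∘ f) := by
  obtain ⟨U, hU, h⟩ := hf
  exact ⟨U, hU, fun g s hs => by simp only [Function.comp_apply, h g s hs]⟩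

lemma IsConst₂.comp {X Y : Type*} {f : G × G → X} (hf : 𝒰.IsConst₂ f) (φ : X → Y) :
    𝒰.IsConst₂ (φ ∘ f) := by
  obtain ⟨U, hU, h⟩ := hf
  exact ⟨U, hU, fun g g' s s' hs hs' => by simp only [Function.comp_apply, h g g' s s' hs hs']⟩

/-- A level-constant function has finite range. -/
lemma IsConst₁.finite_range {X : Type*} {f : G → X} (hf : 𝒰.IsConst₁ f) :
    (Set.range f).Finite := by
  obtain ⟨U, hU, h⟩ := hf
  haveI := 𝒰.finiteIndex U hU
  haveI : Finite (G ⧸ U) := Subgroup.finite_quotient_of_finiteIndex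
  let f' : G ⧸ U → X := Quotient.lift f (by
    intro a b hab
    have hab' : a⁻¹ * b ∈ U := QuotientGroup.leftRel_apply.1 hab
    have := h a (a⁻¹ * b) hab'
    rw [mul_inv_cancel_left] at this
    exact this.symm)
  have : Set.range f ⊆ Set.range f' := by
    rintro _ ⟨g, rfl⟩
    exact ⟨QuotientGroup.mk g, rfl⟩
  exact (Set.finite_range f').subset this

lemma IsConst₂.finite_range {X : Type*} {f : G × G → X} (hf : 𝒰.IsConst₂ f) :
    (Set.range f).Finite := by
  obtain ⟨U, hU, h⟩ := hf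
  haveI := 𝒰.finiteIndex U hU
  haveI : Finite (G ⧸ U) := Subgroup.finite_quotient_of_finiteIndex
  have key : ∀ a b a' b' : G, (a : G ⧸ U) = a' → (b : G ⧸ U) = b' → f (a, b) = f (a', b') := by
    intro a b a' b' ha hb
    have ha' : a⁻¹ * a' ∈ U := QuotientGroup.eq.1 ha
    have hb' : b⁻¹ * b' ∈ U := QuotientGroup.eq.1 hb
    have := h a b (a⁻¹ * a') (b⁻¹ * b') ha' hb'
    rw [mul_inv_cancel_left, mul_inv_cancel_left] at this
    exact this.symm
  let f' : (G ⧸ U) × (G ⧸ U) → X := fun x =>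
    f (Quotient.out x.1, Quotient.out x.2)
  have : Set.range f ⊆ Set.range f' := by
    rintro _ ⟨⟨a, b⟩, rfl⟩
    refine ⟨(QuotientGroup.mk a, QuotientGroup.mk b), ?_⟩
    exact key _ _ _ _ (QuotientGroup.out_eq' _) (QuotientGroup.out_eq' _)
  exact (Set.finite_range f').subset this

end LevelStr

end Fermat.Agent.S55.Profin15
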