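/-
[PROFIN] (helper15): level cohomology `H0, H1, H2` of a group with a level structure.
-/
import Fermat.Agent.S55.Profin15.Level

set_option autoImplicit false

universe u

open CategoryTheory groupCohomology

namespace Fermat.Agent.S55.Profin15

namespace LevelStr

variable {k G : Type u} [CommRing k] [Group G] (𝒰 : LevelStr G) (M : Rep k G)

/-- `M` is smooth for the level structure: every vector is fixed by some level. -/
def IsSmooth : Prop := ∀ m : M, ∃ U ∈ 𝒰.levels, ∀ s ∈ U, M.ρ s m = m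

/-- level `1`-cochains -/
def C₁ : Submodule k (G → M) where
  carrier := {f | 𝒰.IsConst₁ f}
  add_mem' hf hf' := hf.add hf'
  zero_mem' := isConst₁_const (0 : M)
  smul_mem' c _ hf := hf.comp (c • ·)

/-- level `2`-cochains -/
def C₂ : Submodule k (G × G → M) where
  carrier := {f | 𝒰.IsConst₂ f}
  add_mem' hf hf' := hf.add hf'
  zero_mem' := isConst₂_const (0 : M)
  smul_mem' c _ hf := hf.comp (c • ·)

lemma mem_C₁_iff (f : G → M) : f ∈ 𝒰.C₁ M ↔ 𝒰.IsConst₁ f := Iff.rfl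
lemma mem_C₂_iff (f : G × G → M) : f ∈ 𝒰.C₂ M ↔ 𝒰.IsConst₂ f := Iff.rfl

/-- level `1`-cocycles -/
def Z₁ : Submodule k (G → M) := cocycles₁ M ⊓ 𝒰.C₁ M

/-- level `2`-cocycles -/
def Z₂ : Submodule k (G × G → M) := cocycles₂ M ⊓ 𝒰.C₂ M

/-- level `2`-coboundaries: `d` of level `1`-cochains -/
def B₂ : Submodule k (G × G → M) := (𝒰.C₁ M).map (d₁₂ M).hom

lemma mem_Z₁_iff (f : G → M) : f ∈ 𝒰.Z₁ M ↔ f ∈ cocycles₁ M ∧ 𝒰.IsConst₁ f := Iff.rfl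
lemma mem_Z₂_iff (f : G × G → M) : f ∈ 𝒰.Z₂ M ↔ f ∈ cocycles₂ M ∧ 𝒰.IsConst₂ f := Iff.rfl
lemma mem_B₂_iff (f : G × G → M) :
    f ∈ 𝒰.B₂ M ↔ ∃ x : G → M, 𝒰.IsConst₁ x ∧ (d₁₂ M).hom x = f := by
  simp only [B₂, Submodule.mem_map, mem_C₁_iff]

/-- `H¹` of the level structure. -/
abbrev H1 : Type u := ↥(𝒰.Z₁ M) ⧸ (coboundaries₁ M).comap (𝒰.Z₁ M).subtype

/-- `H²` of the level structure (same shape as the Prelude's `continuousH2`). -/
abbrev H2 : Type u := ↥(𝒰.Z₂ M) ⧸ (𝒰.B₂ M).comap (𝒰.Z₂ M).subtype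

/-- `H⁰` = invariants. -/
noncomputable abbrev H0 : Submodule k M := M.ρ.invariants

abbrev H1π : ↥(𝒰.Z₁ M) →ₗ[k] 𝒰.H1 M := Submodule.mkQ _
abbrev H2π : ↥(𝒰.Z₂ M) →ₗ[k] 𝒰.H2 M := Submodule.mkQ _

lemma H1π_eq_zero_iff (f : ↥(𝒰.Z₁ M)) : 𝒰.H1π M f = 0 ↔ (f : G → M) ∈ coboundaries₁ M := by
  simp [Submodule.Quotient.mk_eq_zero, Submodule.mem_comap]

lemma H2π_eq_zero_iff (f : ↥(𝒰.Z₂ M)) : 𝒰.H2π M f = 0 ↔ (f : G × G → M) ∈ 𝒰.B₂ M := by
  simp [Submodule.Quotient.mk_eq_zero, Submodule.mem_comap]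

variable {𝒰 M}

/-- For smooth `M`, finitely many vectors are fixed by a common level. -/
lemma IsSmooth.exists_level_of_finite (hM : 𝒰.IsSmooth M) {s : Set M} (hs : s.Finite) :
    ∃ U ∈ 𝒰.levels, ∀ m ∈ s, ∀ g ∈ U, M.ρ g m = m := by
  induction s, hs using Set.Finite.induction_on with
  | empty =>
    obtain ⟨U, hU⟩ := 𝒰.nonempty
    exact ⟨U, hU, fun m hm => (Set.notMem_empty m hm).elim⟩
  | insert _ _ ih =>
    rename_i a s _ _
    obtain ⟨U, hU, h⟩ := ih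
    obtain ⟨V, hV, hV'⟩ := hM a
    obtain ⟨W, hW, hle⟩ := 𝒰.directed U hU V hV
    refine ⟨W, hW, fun m hm g hg => ?_⟩
    rcases Set.mem_insert_iff.1 hm with rfl | hm
    · exact hV' g (hle.trans inf_le_right hg)
    · exact h m hm g (hle.trans inf_le_left hg)

/-- For smooth `M` the abstract `1`-coboundaries are level cochains. -/
lemma IsSmooth.coboundaries₁_le_C₁ (hM : 𝒰.IsSmooth M) : coboundaries₁ M ≤ 𝒰.C₁ M := by
  rintro _ ⟨m, rfl⟩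
  obtain ⟨U, hU, h⟩ := hM m
  refine ⟨U, hU, fun g s hs => ?_⟩
  simp only [d₀₁_hom_apply, map_mul, Module.End.mul_apply, h s hs]

/-- For smooth `M`, `d` maps level `1`-cochains to level `2`-cochains. -/
lemma IsSmooth.d₁₂_mem_C₂ (hM : 𝒰.IsSmooth M) {f : G → M} (hf : 𝒰.IsConst₁ f) :
    (d₁₂ M).hom f ∈ 𝒰.C₂ M := by
  obtain ⟨V, hV, hfix⟩ := hM.exists_level_of_finite hf.finite_range
  obtain ⟨W, hW, hle, hc⟩ := hf.exists_le hV
  haveI := 𝒰.normal W hW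
  refine ⟨W, hW, fun g g' s s' hs hs' => ?_⟩
  simp only [d₁₂_hom_apply]
  have h1 : f (g' * s') = f g' := hc g' s' hs'
  have h2 : f (g * s) = f g := hc g s hs
  have h3 : f (g * s * (g' * s')) = f (g * g') := by
    have : g * s * (g' * s') = g * g' * ((g'⁻¹ * s * g') * s') := by group
    rw [this]
    exact hc _ _ (W.mul_mem (Subgroup.Normal.conj_mem' ‹_› s hs g') hs')
  rw [h1, h2, h3, map_mul, Module.End.mul_apply, hfix (f g') ⟨g', rfl⟩ s (hle hs)]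

lemma IsSmooth.B₂_le_Z₂ (hM : 𝒰.IsSmooth M) : 𝒰.B₂ M ≤ 𝒰.Z₂ M := by
  rintro _ ⟨f, hf, rfl⟩
  refine ⟨?_, hM.d₁₂_mem_C₂ hf⟩
  exact coboundaries₂_le_cocycles₂ M ⟨f, rfl⟩

end LevelStr

end Fermat.Agent.S55.Profin15
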