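/-
[PROFIN] (helper15): the global level structure `globalLevels S` on `G_ℚ` and the identification
of the Prelude's `IsLevelConstantS₁/₂`, `continuousH1S`, `continuousH2S` with level cohomology.
-/
import Fermat.Agent.S55.Profin15.Cohomology
import Fermat.Agent.Lib.InertiaGenerate
import Fermat.Prelude.Def_GroupCohomology_ContinuousUnramified

set_option autoImplicit false
set_option linter.style.haveILetI false

open CategoryTheory groupCohomology
open Fermat.Agent.Lib.FrobeniusExists Fermat.Agent.Lib.InertiaGenerate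
open scoped Pointwise

namespace Fermat.Agent.S55.Profin15

attribute [local instance] isAlgebraic_Qb isAlgClosure_Qb isGalois_Qb

open IntermediateField

section Generic

variable {K L : Type*} [Field K] [Field L] [Algebra K L]

/-- Generic form (avoids `ℚ`-algebra instance diamonds): a finite subextension of a Galois
extension is contained in a finite subextension with normal fixing subgroup, namely its normal
closure, and the latter is fixed by every `τ` all of whose conjugates fix `F`. -/
theorem exists_normal_ge [IsGalois K L] (F : IntermediateField K L) [FiniteDimensional K F] :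
    ∃ F' : IntermediateField K L, F ≤ F' ∧ FiniteDimensional K F' ∧ F'.fixingSubgroup.Normal ∧
      ∀ τ : Gal(L/K), (∀ σ : Gal(L/K), σ⁻¹ * τ * σ ∈ F.fixingSubgroup) →
        τ ∈ F'.fixingSubgroup := by
  haveI : Normal K L := IsGalois.to_normal
  haveI : Normal K (normalClosure K F L) := normalClosure.normal K F L
  haveI : IsGalois K (normalClosure K F L) := ⟨⟩
  refine ⟨normalClosure K F L, IntermediateField.le_normalClosure F, inferInstance,
    IsGalois.fixingSubgroup_normal_of_isGalois (K := K) (L := L) _, ?_⟩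
  intro τ hτ
  rw [IntermediateField.mem_fixingSubgroup_iff]
  have key : normalClosure K F L ≤ IntermediateField.fixedField (Subgroup.zpowers τ) := by
    rw [IntermediateField.normalClosure_def'' F, iSup_le_iff]
    intro σ x hx
    obtain ⟨y, hy, rfl⟩ := hx
    rw [IntermediateField.mem_fixedField_iff]
    intro g hg
    obtain ⟨n, rfl⟩ := Subgroup.mem_zpowers_iff.1 hg
    have h3 : (σ⁻¹ * τ * σ) y = y :=
      (IntermediateField.mem_fixingSubgroup_iff _ _).1 (hτ σ) y hy
    have h4 : τ (σ y) = σ y := by
      have : σ ((σ⁻¹ * τ * σ) y) = σ y := by rw [h3]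
      simpa [AlgEquiv.mul_apply] using this
    have h5 : ∀ m : ℕ, (τ ^ m) (σ y) = σ y := by
      intro m
      induction m with
      | zero => simp
      | succ m ih => rw [pow_succ, AlgEquiv.mul_apply, h4, ih]
    have h6 : (τ⁻¹) (σ y) = σ y := by
      have := congrArg (τ⁻¹ : Gal(L/K)) h4
      simpa [← AlgEquiv.mul_apply] using this.symm
    have h7 : ∀ m : ℕ, ((τ⁻¹) ^ m) (σ y) = σ y := by
      intro m
      induction m with
      | zero => simp
      | succ m ih => rw [pow_succ, AlgEquiv.mul_apply, h6, ih]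
    show (τ ^ n) ((σ : L →ₐ[K] L) y) = (σ : L →ₐ[K] L) y
    rcases Int.eq_nat_or_neg n with ⟨m, rfl | rfl⟩
    · simpa using h5 m
    · rw [zpow_neg, zpow_natCast, ← inv_pow]
      exact h7 m
  intro x hx
  have := key hx
  rw [IntermediateField.mem_fixedField_iff] at this
  exact this τ (Subgroup.mem_zpowers τ)

theorem fixingSubgroup_finiteIndex [IsGalois K L] (F : IntermediateField K L)
    [FiniteDimensional K F] : F.fixingSubgroup.FiniteIndex := by
  refine ⟨?_⟩
  rw [← IntermediateField.finrank_eq_fixingSubgroup_index]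
  exact Module.finrank_pos.ne'

end Generic

/-- every field unramified outside `S` is contained in one with normal fixing subgroup -/
theorem exists_normal_unramified_ge {S : Finset Nat.Primes}
    {F : IntermediateField ℚ Qb} (hF : F.IsUnramifiedOutside S) :
    ∃ F' : IntermediateField ℚ Qb, F ≤ F' ∧ F'.IsUnramifiedOutside S ∧
      F'.fixingSubgroup.Normal := by
  haveI := hF.1
  obtain ⟨F', hle, hfin, hnor, h⟩ := exists_normal_ge F
  refine ⟨F', hle, ⟨hfin, fun q hq A hA τ hτ => h τ fun σ => ?_⟩, hnor⟩
  have h1 : σ⁻¹ * τ * σ⁻¹⁻¹ ∈ (σ⁻¹ • A).inertiaSubgroupIn ℚ :=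
    conj_mem_inertiaSubgroupIn q.2 hA σ⁻¹ hτ
  rw [inv_inv] at h1
  exact hF.2 q hq (σ⁻¹ • A) (liesOverPrime_smul hA σ⁻¹) h1

/-- The global level structure: normal fixing subgroups of finite extensions unramified
outside `S`. -/
noncomputable def globalLevels (S : Finset Nat.Primes) : LevelStr GQ where
  levels := {U | U.Normal ∧ ∃ F : IntermediateField ℚ Qb, F.IsUnramifiedOutside S ∧
    U = F.fixingSubgroup}
  nonempty := by
    obtain ⟨F', _, hF', hn⟩ := exists_normal_unramified_ge
      (IntermediateField.isUnramifiedOutside_bot S)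
    exact ⟨F'.fixingSubgroup, hn, F', hF', rfl⟩
  normal := fun U hU => hU.1
  finiteIndex := by
    rintro U ⟨_, F, hF, rfl⟩
    haveI := hF.1
    exact fixingSubgroup_finiteIndex F
  directed := by
    rintro U ⟨hU, F, hF, rfl⟩ V ⟨hV, F', hF', rfl⟩
    refine ⟨(F ⊔ F').fixingSubgroup, ⟨?_, F ⊔ F', hF.sup hF', rfl⟩, ?_⟩
    · rw [IntermediateField.fixingSubgroup_sup]
      exact Subgroup.normal_inf_normal _ _
    · rw [IntermediateField.fixingSubgroup_sup]

theorem mem_globalLevels_iff {S : Finset Nat.Primes} {U : Subgroup GQ} :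
    U ∈ (globalLevels S).levels ↔ U.Normal ∧ ∃ F : IntermediateField ℚ Qb,
      F.IsUnramifiedOutside S ∧ U = F.fixingSubgroup := Iff.rfl

/-- every field unramified outside `S` is contained in a Galois one -/
theorem exists_level_le {S : Finset Nat.Primes} {F : IntermediateField ℚ Qb}
    (hF : F.IsUnramifiedOutside S) :
    ∃ U ∈ (globalLevels S).levels, U ≤ F.fixingSubgroup := by
  obtain ⟨F', hle, hF', hn⟩ := exists_normal_unramified_ge hF
  exact ⟨F'.fixingSubgroup, ⟨hn, F', hF', rfl⟩, IntermediateField.fixingSubgroup_antitone hle⟩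

theorem isLevelConstantS₁_iff (S : Finset Nat.Primes) {X : Type*} (f : GQ → X) :
    IsLevelConstantS₁ S f ↔ (globalLevels S).IsConst₁ f := by
  constructor
  · rintro ⟨F, hF, h⟩
    obtain ⟨U, hU, hle⟩ := exists_level_le hF
    exact ⟨U, hU, fun g s hs => h g s (hle hs)⟩
  · rintro ⟨U, ⟨_, F, hF, rfl⟩, h⟩
    exact ⟨F, hF, h⟩

theorem isLevelConstantS₂_iff (S : Finset Nat.Primes) {X : Type*} (f : GQ × GQ → X) :
    IsLevelConstantS₂ S f ↔ (globalLevels S).IsConst₂ f := by
  constructor
  · rintro ⟨F, hF, h⟩
    obtain ⟨U, hU, hle⟩ := exists_level_le hF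
    exact ⟨U, hU, fun g g' s s' hs hs' => h g g' s s' (hle hs) (hle hs')⟩
  · rintro ⟨U, ⟨_, F, hF, rfl⟩, h⟩
    exact ⟨F, hF, h⟩

section Modules

variable (S : Finset Nat.Primes) {k : Type} [CommRing k] (M : Rep k GQ)

theorem levelCochainsS₁_eq : levelCochainsS₁ S M = (globalLevels S).C₁ M := by
  ext f; exact isLevelConstantS₁_iff S f

theorem levelCochainsS₂_eq : levelCochainsS₂ S M = (globalLevels S).C₂ M := by
  ext f; exact isLevelConstantS₂_iff S f

theorem levelCocyclesS₂_eq : levelCocyclesS₂ S M = (globalLevels S).Z₂ M := by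
  rw [levelCocyclesS₂, LevelStr.Z₂, levelCochainsS₂_eq]

theorem levelCoboundariesS₂_eq : levelCoboundariesS₂ S M = (globalLevels S).B₂ M := by
  rw [levelCoboundariesS₂, LevelStr.B₂, levelCochainsS₁_eq]

end Modules

end Fermat.Agent.S55.Profin15
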