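/-
[PROFIN] 10a (helper15): functoriality of level cohomology in the coefficient module.
-/
import Fermat.Agent.S55.Profin15.Cohomology

set_option autoImplicit false

universe u

open CategoryTheory groupCohomology

namespace Fermat.Agent.S55.Profin15

namespace LevelStr

variable {k G : Type u} [CommRing k] [Group G] (𝒰 : LevelStr G)
variable {A B C : Rep k G}

/-- An equivariant linear map (raw form; for `φ : A ⟶ B` use `φ.hom.toLinearMap` and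
`Rep.hom_comm_apply φ`). -/
def IsEquivariant (φ : A →ₗ[k] B) : Prop := ∀ (g : G) (a : A), φ (A.ρ g a) = B.ρ g (φ a)

section maps

variable (φ : A →ₗ[k] B) (hφ : IsEquivariant φ)

/-- post-composition on `1`-cochains -/
def comp₁ : (G → A) →ₗ[k] (G → B) := φ.compLeft G
/-- post-composition on `2`-cochains -/
def comp₂ : (G × G → A) →ₗ[k] (G × G → B) := φ.compLeft (G × G)

@[simp] lemma comp₁_apply (x : G → A) (g : G) : comp₁ φ x g = φ (x g) := rfl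
@[simp] lemma comp₂_apply (x : G × G → A) (g : G × G) : comp₂ φ x g = φ (x g) := rfl

include hφ in
lemma comp₁_d₀₁ (a : A) : comp₁ φ ((d₀₁ A).hom a) = (d₀₁ B).hom (φ a) := by
  ext g
  simp [d₀₁_hom_apply, hφ g a]

include hφ in
lemma comp₂_d₁₂ (x : G → A) : comp₂ φ ((d₁₂ A).hom x) = (d₁₂ B).hom (comp₁ φ x) := by
  ext ⟨g, h⟩
  simp [d₁₂_hom_apply, hφ g]

include hφ in
lemma comp₁_mem_cocycles₁ {x : G → A} (hx : x ∈ cocycles₁ A) : comp₁ φ x ∈ cocycles₁ B := by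
  rw [mem_cocycles₁_iff] at hx ⊢
  intro g h
  simp only [comp₁_apply, hx g h, map_add, hφ g]

include hφ in
lemma comp₂_mem_cocycles₂ {x : G × G → A} (hx : x ∈ cocycles₂ A) : comp₂ φ x ∈ cocycles₂ B := by
  rw [mem_cocycles₂_iff] at hx ⊢
  intro g h j
  simp only [comp₂_apply, ← map_add, hx g h j, ← hφ g]

lemma comp₁_mem_C₁ {x : G → A} (hx : x ∈ 𝒰.C₁ A) : comp₁ φ x ∈ 𝒰.C₁ B :=
  (IsConst₁.comp hx φ :)

lemma comp₂_mem_C₂ {x : G × G → A} (hx : x ∈ 𝒰.C₂ A) : comp₂ φ x ∈ 𝒰.C₂ B :=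
  (IsConst₂.comp hx φ :)

include hφ in
lemma comp₁_mem_Z₁ {x : G → A} (hx : x ∈ 𝒰.Z₁ A) : comp₁ φ x ∈ 𝒰.Z₁ B :=
  ⟨comp₁_mem_cocycles₁ φ hφ hx.1, 𝒰.comp₁_mem_C₁ φ hx.2⟩

include hφ in
lemma comp₂_mem_Z₂ {x : G × G → A} (hx : x ∈ 𝒰.Z₂ A) : comp₂ φ x ∈ 𝒰.Z₂ B :=
  ⟨comp₂_mem_cocycles₂ φ hφ hx.1, 𝒰.comp₂_mem_C₂ φ hx.2⟩

include hφ in
lemma comp₁_mem_coboundaries₁ {x : G → A} (hx : x ∈ coboundaries₁ A) :
    comp₁ φ x ∈ coboundaries₁ B := by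
  obtain ⟨a, rfl⟩ := hx
  exact ⟨φ a, (comp₁_d₀₁ φ hφ a).symm⟩

include hφ in
lemma comp₂_mem_B₂ {x : G × G → A} (hx : x ∈ 𝒰.B₂ A) : comp₂ φ x ∈ 𝒰.B₂ B := by
  obtain ⟨y, hy, rfl⟩ := (𝒰.mem_B₂_iff A x).1 hx
  exact (𝒰.mem_B₂_iff B _).2 ⟨comp₁ φ y, IsConst₁.comp hy φ, (comp₂_d₁₂ φ hφ y).symm⟩

/-- map on level `1`-cocycles -/
def Z₁map : ↥(𝒰.Z₁ A) →ₗ[k] ↥(𝒰.Z₁ B) :=
  (comp₁ φ).restrict fun _ hx => 𝒰.comp₁_mem_Z₁ φ hφ hx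

/-- map on level `2`-cocycles -/
def Z₂map : ↥(𝒰.Z₂ A) →ₗ[k] ↥(𝒰.Z₂ B) :=
  (comp₂ φ).restrict fun _ hx => 𝒰.comp₂_mem_Z₂ φ hφ hx

@[simp] lemma coe_Z₁map (x : ↥(𝒰.Z₁ A)) : (𝒰.Z₁map φ hφ x : G → B) = comp₁ φ x := rfl
@[simp] lemma coe_Z₂map (x : ↥(𝒰.Z₂ A)) : (𝒰.Z₂map φ hφ x : G × G → B) = comp₂ φ x := rfl

/-- `H⁰`-map -/
noncomputable def H0map : ↥(H0 A) →ₗ[k] ↥(H0 B) :=
  (φ.restrict (p := A.ρ.invariants) (q := B.ρ.invariants) fun a ha g => by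
    rw [← hφ g a, ha g])

@[simp] lemma coe_H0map (x : ↥(H0 A)) : (H0map φ hφ x : B) = φ x := rfl

/-- `H¹`-map -/
def H1map : 𝒰.H1 A →ₗ[k] 𝒰.H1 B :=
  Submodule.mapQ _ _ (𝒰.Z₁map φ hφ) fun _ hx => comp₁_mem_coboundaries₁ φ hφ hx

/-- `H²`-map -/
def H2map : 𝒰.H2 A →ₗ[k] 𝒰.H2 B :=
  Submodule.mapQ _ _ (𝒰.Z₂map φ hφ) fun _ hx => 𝒰.comp₂_mem_B₂ φ hφ hx

@[simp] lemma H1map_H1π (x : ↥(𝒰.Z₁ A)) :
    𝒰.H1map φ hφ (𝒰.H1π A x) = 𝒰.H1π B (𝒰.Z₁map φ hφ x) := rfl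

@[simp] lemma H2map_H2π (x : ↥(𝒰.Z₂ A)) :
    𝒰.H2map φ hφ (𝒰.H2π A x) = 𝒰.H2π B (𝒰.Z₂map φ hφ x) := rfl

end maps

lemma isEquivariant_id : IsEquivariant (LinearMap.id : A →ₗ[k] A) := fun _ _ => rfl

lemma IsEquivariant.comp {φ : A →ₗ[k] B} {ψ : B →ₗ[k] C} (hφ : IsEquivariant φ)
    (hψ : IsEquivariant ψ) : IsEquivariant (ψ ∘ₗ φ) := fun g a => by
  simp only [LinearMap.comp_apply, hφ g a, hψ g]

lemma isEquivariant_hom (f : A ⟶ B) : IsEquivariant (A := A) (B := B) f.hom.toLinearMap :=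
  fun g a => Rep.hom_comm_apply f g a

lemma H1map_comp {φ : A →ₗ[k] B} {ψ : B →ₗ[k] C} (hφ : IsEquivariant φ)
    (hψ : IsEquivariant ψ) (x : 𝒰.H1 A) :
    𝒰.H1map (ψ ∘ₗ φ) (hφ.comp hψ) x = 𝒰.H1map ψ hψ (𝒰.H1map φ hφ x) := by
  obtain ⟨c, rfl⟩ := Submodule.Quotient.mk_surjective _ x
  rfl

lemma H2map_comp {φ : A →ₗ[k] B} {ψ : B →ₗ[k] C} (hφ : IsEquivariant φ)
    (hψ : IsEquivariant ψ) (x : 𝒰.H2 A) :
    𝒰.H2map (ψ ∘ₗ φ) (hφ.comp hψ) x = 𝒰.H2map ψ hψ (𝒰.H2map φ hφ x) := by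
  obtain ⟨c, rfl⟩ := Submodule.Quotient.mk_surjective _ x
  rfl

lemma H1map_id (x : 𝒰.H1 A) : 𝒰.H1map LinearMap.id isEquivariant_id x = x := by
  obtain ⟨c, rfl⟩ := Submodule.Quotient.mk_surjective _ x
  rfl

lemma H2map_id (x : 𝒰.H2 A) : 𝒰.H2map LinearMap.id isEquivariant_id x = x := by
  obtain ⟨c, rfl⟩ := Submodule.Quotient.mk_surjective _ x
  rfl

end LevelStr

end Fermat.Agent.S55.Profin15
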