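/-
[PROFIN] 10a (helper15): cochain-level exactness for a short exact sequence of smooth modules.
-/
import Fermat.Agent.S55.Profin15.Functor

set_option autoImplicit false

universe u

open CategoryTheory groupCohomology

namespace Fermat.Agent.S55.Profin15

namespace LevelStr

variable {k G : Type u} [CommRing k] [Group G] (𝒰 : LevelStr G)
variable {A B C : Rep k G}

/-- A short exact sequence of representations, in raw linear-map form. -/
structure ShortExact (φ : A →ₗ[k] B) (ψ : B →ₗ[k] C) : Prop where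
  equivariant_left : IsEquivariant φ
  equivariant_right : IsEquivariant ψ
  injective : Function.Injective φ
  surjective : Function.Surjective ψ
  exact : Function.Exact φ ψ

variable {φ : A →ₗ[k] B} {ψ : B →ₗ[k] C}

namespace ShortExact

variable (h : ShortExact φ ψ)
include h

lemma comp_eq_zero (a : A) : ψ (φ a) = 0 := h.exact.apply_apply_eq_zero a

lemma smooth_left (hB : 𝒰.IsSmooth B) : 𝒰.IsSmooth A := by
  intro a
  obtain ⟨U, hU, hfix⟩ := hB (φ a)
  refine ⟨U, hU, fun s hs => h.injective ?_⟩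
  rw [h.equivariant_left s a, hfix s hs]

lemma smooth_right (hB : 𝒰.IsSmooth B) : 𝒰.IsSmooth C := by
  intro c
  obtain ⟨b, rfl⟩ := h.surjective c
  obtain ⟨U, hU, hfix⟩ := hB b
  refine ⟨U, hU, fun s hs => ?_⟩
  rw [← h.equivariant_right s b, hfix s hs]

lemma comp₁_injective : Function.Injective (comp₁ (G := G) φ) := by
  intro x y hxy
  funext g
  exact h.injective (congr_fun hxy g)

lemma comp₂_injective : Function.Injective (comp₂ (G := G) φ) := by
  intro x y hxy
  funext g
  exact h.injective (congr_fun hxy g)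

/-- a `B`-valued function killed by `ψ` comes from a unique `A`-valued function -/
lemma exists_comp_eq {X : Type*} (x : X → B) (hx : ∀ t, ψ (x t) = 0) :
    ∃ a : X → A, ∀ t, φ (a t) = x t := by
  have : ∀ t, ∃ a : A, φ a = x t := fun t => (h.exact (x t)).1 (hx t)
  choose a ha using this
  exact ⟨a, ha⟩

lemma exists_comp₁_eq {x : G → B} (hx : x ∈ 𝒰.C₁ B) (hψ : comp₁ ψ x = 0) :
    ∃ a ∈ 𝒰.C₁ A, comp₁ φ a = x := by
  obtain ⟨a, ha⟩ := h.exists_comp_eq x (fun g => congr_fun hψ g)
  obtain ⟨U, hU, hc⟩ := hx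
  refine ⟨a, ⟨U, hU, fun g s hs => h.injective ?_⟩, funext ha⟩
  rw [ha, ha, hc g s hs]

lemma exists_comp₂_eq {x : G × G → B} (hx : x ∈ 𝒰.C₂ B) (hψ : comp₂ ψ x = 0) :
    ∃ a ∈ 𝒰.C₂ A, comp₂ φ a = x := by
  obtain ⟨a, ha⟩ := h.exists_comp_eq x (fun g => congr_fun hψ g)
  obtain ⟨U, hU, hc⟩ := hx
  refine ⟨a, ⟨U, hU, fun g g' s s' hs hs' => h.injective ?_⟩, funext ha⟩
  rw [ha, ha, hc g g' s s' hs hs']

/-- lifting level `1`-cochains through `ψ` -/
lemma exists_lift₁ {x : G → C} (hx : x ∈ 𝒰.C₁ C) : ∃ y ∈ 𝒰.C₁ B, comp₁ ψ y = x := by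
  refine ⟨Function.surjInv h.surjective ∘ x, (IsConst₁.comp hx _ :), ?_⟩
  funext g
  exact Function.surjInv_eq h.surjective (x g)

/-- lifting level `2`-cochains through `ψ` -/
lemma exists_lift₂ {x : G × G → C} (hx : x ∈ 𝒰.C₂ C) : ∃ y ∈ 𝒰.C₂ B, comp₂ ψ y = x := by
  refine ⟨Function.surjInv h.surjective ∘ x, (IsConst₂.comp hx _ :), ?_⟩
  funext g
  exact Function.surjInv_eq h.surjective (x g)

/-- a cochain whose image under the injective `φ` is a cocycle is a cocycle -/
lemma mem_cocycles₁_of_comp₁ {a : G → A} (ha : comp₁ φ a ∈ cocycles₁ B) : a ∈ cocycles₁ A := by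
  rw [mem_cocycles₁_iff] at ha ⊢
  intro g g'
  apply h.injective
  have := ha g g'
  simp only [comp₁_apply] at this
  rw [this, map_add, h.equivariant_left g]

lemma mem_cocycles₂_of_comp₂ {a : G × G → A} (ha : comp₂ φ a ∈ cocycles₂ B) :
    a ∈ cocycles₂ A := by
  rw [mem_cocycles₂_iff] at ha ⊢
  intro g g' g''
  apply h.injective
  have := ha g g' g''
  simp only [comp₂_apply] at this
  rw [map_add, map_add, this, h.equivariant_left g]

end ShortExact

end LevelStr

end Fermat.Agent.S55.Profin15
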