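/-
[PROFIN] 10a (helper15): the long exact sequence of level cohomology, part 1:
`0 → H⁰(A) → H⁰(B) → H⁰(C) → H¹(A) → H¹(B) → H¹(C)`.
-/
import Fermat.Agent.S55.Profin15.Exact

set_option autoImplicit false

universe u

open CategoryTheory groupCohomology

namespace Fermat.Agent.S55.Profin15

namespace LevelStr

variable {k G : Type u} [CommRing k] [Group G] (𝒰 : LevelStr G)
variable {A B C : Rep.{u} k G} {φ : A →ₗ[k] B} {ψ : B →ₗ[k] C}

/-- `d⁰ : M → Z¹(𝒰; M)` for smooth `M`. -/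
noncomputable def dZ₁ (M : Rep k G) (hM : 𝒰.IsSmooth M) : M →ₗ[k] ↥(𝒰.Z₁ M) :=
  (d₀₁ M).hom.codRestrict (𝒰.Z₁ M) fun m =>
    ⟨coboundaries₁_le_cocycles₁ M ⟨m, rfl⟩, hM.coboundaries₁_le_C₁ ⟨m, rfl⟩⟩

@[simp] lemma coe_dZ₁ (M : Rep k G) (hM : 𝒰.IsSmooth M) (m : M) :
    (𝒰.dZ₁ M hM m : G → M) = (d₀₁ M).hom m := rfl

lemma exact_subtype_dZ₁ (M : Rep k G) (hM : 𝒰.IsSmooth M) :
    Function.Exact (H0 M).subtype (𝒰.dZ₁ M hM) := by
  intro m
  constructor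
  · intro hm
    refine ⟨⟨m, ?_⟩, rfl⟩
    have h0 : (d₀₁ M).hom m = 0 := congrArg Subtype.val hm
    have : m ∈ LinearMap.ker (d₀₁ M).hom := h0
    rwa [d₀₁_ker_eq_invariants] at this
  · rintro ⟨x, rfl⟩
    apply Subtype.ext
    have : (x : M) ∈ LinearMap.ker (d₀₁ M).hom := by
      rw [d₀₁_ker_eq_invariants]; exact x.2
    exact this

lemma exact_dZ₁_H1π (M : Rep k G) (hM : 𝒰.IsSmooth M) :
    Function.Exact (𝒰.dZ₁ M hM) (𝒰.H1π M) := by
  intro x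
  rw [H1π_eq_zero_iff]
  constructor
  · rintro ⟨m, hm⟩
    exact ⟨m, Subtype.ext hm⟩
  · rintro ⟨m, rfl⟩
    exact ⟨m, rfl⟩

namespace ShortExact

variable (h : ShortExact φ ψ)
include h

lemma exact_Z₁map : Function.Exact (𝒰.Z₁map φ h.equivariant_left)
    (𝒰.Z₁map ψ h.equivariant_right) := by
  intro z
  constructor
  · intro hz
    have hz' : comp₁ ψ (z : G → B) = 0 := congrArg Subtype.val hz
    obtain ⟨a, ha, hza⟩ := h.exists_comp₁_eq 𝒰 z.2.2 hz'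
    have hac : a ∈ cocycles₁ A := h.mem_cocycles₁_of_comp₁ (by rw [hza]; exact z.2.1)
    exact ⟨⟨a, hac, ha⟩, Subtype.ext hza⟩
  · rintro ⟨a, rfl⟩
    apply Subtype.ext
    funext g
    exact h.comp_eq_zero _

lemma Z₁map_injective : Function.Injective (𝒰.Z₁map φ h.equivariant_left) := by
  intro x y hxy
  apply Subtype.ext
  exact h.comp₁_injective (congrArg Subtype.val hxy)

variable (hB : 𝒰.IsSmooth B)
include hB

/-- the connecting map `δ⁰ : H⁰(C) → H¹(𝒰; A)` -/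
noncomputable def δ₀ : ↥(H0 C) →ₗ[k] 𝒰.H1 A :=
  SnakeLemma.δ' (𝒰.dZ₁ A (h.smooth_left 𝒰 hB)) (𝒰.dZ₁ B hB) (𝒰.dZ₁ C (h.smooth_right 𝒰 hB))
    φ ψ h.exact (𝒰.Z₁map φ h.equivariant_left) (𝒰.Z₁map ψ h.equivariant_right)
    (h.exact_Z₁map 𝒰)
    (by ext a : 2; exact comp₁_d₀₁ φ h.equivariant_left a)
    (by ext b : 2; exact comp₁_d₀₁ ψ h.equivariant_right b)
    (H0 C).subtype (𝒰.exact_subtype_dZ₁ C (h.smooth_right 𝒰 hB))
    (𝒰.H1π A) (𝒰.exact_dZ₁_H1π A (h.smooth_left 𝒰 hB))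
    h.surjective (h.Z₁map_injective 𝒰)

/-- formula for `δ⁰`: if `ψ b = c` and `φ ∘ a = d⁰ b` then `δ⁰ c = [a]`. -/
lemma δ₀_eq (c : ↥(H0 C)) (b : B) (hb : ψ b = c) (a : ↥(𝒰.Z₁ A))
    (ha : comp₁ φ (a : G → A) = (d₀₁ B).hom b) : h.δ₀ 𝒰 hB c = 𝒰.H1π A a :=
  SnakeLemma.δ'_eq _ _ _ _ _ _ _ _ _ _ _ _ _ _ _ _ _ c b hb a (Subtype.ext ha)

/-- exactness at `H⁰(C)` -/
theorem exact_H0map_δ₀ : Function.Exact (H0map ψ h.equivariant_right) (h.δ₀ 𝒰 hB) :=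
  SnakeLemma.exact_δ'_right _ _ _ _ _ _ _ _ _ _ _ (H0 B).subtype
    (𝒰.exact_subtype_dZ₁ B hB) _ _ _ _ _ _ (H0map ψ h.equivariant_right)
    (by ext x; rfl) (Submodule.injective_subtype _)

/-- exactness at `H¹(A)` -/
theorem exact_δ₀_H1map : Function.Exact (h.δ₀ 𝒰 hB) (𝒰.H1map φ h.equivariant_left) :=
  SnakeLemma.exact_δ'_left _ _ _ _ _ _ _ _ _ _ _ _ _ _ _ (𝒰.H1π B) (𝒰.exact_dZ₁_H1π B hB)
    _ _ (𝒰.H1map φ h.equivariant_left) (by ext x; rfl) (Submodule.mkQ_surjective _)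

omit hB in
/-- exactness at `H⁰(A)` : injectivity -/
theorem H0map_injective : Function.Injective (H0map φ h.equivariant_left) := by
  intro x y hxy
  apply Subtype.ext
  exact h.injective (congrArg Subtype.val hxy)

omit hB in
/-- exactness at `H⁰(B)` -/
theorem exact_H0map_H0map :
    Function.Exact (H0map φ h.equivariant_left) (H0map ψ h.equivariant_right) := by
  intro b
  constructor
  · intro hb
    have hb' : ψ (b : B) = 0 := congrArg Subtype.val hb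
    obtain ⟨a, ha⟩ := (h.exact (b : B)).1 hb'
    refine ⟨⟨a, fun g => h.injective ?_⟩, Subtype.ext ha⟩
    rw [h.equivariant_left g a, ha, b.2 g]
  · rintro ⟨a, rfl⟩
    apply Subtype.ext
    exact h.comp_eq_zero _

/-- exactness at `H¹(B)` -/
theorem exact_H1map_H1map :
    Function.Exact (𝒰.H1map φ h.equivariant_left) (𝒰.H1map ψ h.equivariant_right) := by
  intro x
  obtain ⟨z, rfl⟩ := Submodule.Quotient.mk_surjective _ x
  constructor
  · intro hz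
    have hz' : 𝒰.H1π C (𝒰.Z₁map ψ h.equivariant_right z) = 0 := hz
    rw [H1π_eq_zero_iff] at hz'
    obtain ⟨c, hc⟩ := hz'
    obtain ⟨b, rfl⟩ := h.surjective c
    -- `z - d b` is killed by `ψ`
    let z' : ↥(𝒰.Z₁ B) := z - 𝒰.dZ₁ B hB b
    have hz'0 : 𝒰.Z₁map ψ h.equivariant_right z' = 0 := by
      apply Subtype.ext
      show comp₁ ψ ((z : G → B) - (d₀₁ B).hom b) = 0
      rw [map_sub, comp₁_d₀₁ ψ h.equivariant_right b]
      exact sub_eq_zero.2 hc.symm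
    obtain ⟨a, ha⟩ := (h.exact_Z₁map 𝒰 z').1 hz'0
    refine ⟨𝒰.H1π A a, ?_⟩
    show 𝒰.H1π B (𝒰.Z₁map φ h.equivariant_left a) = 𝒰.H1π B z
    rw [ha, ← sub_eq_zero, ← map_sub, H1π_eq_zero_iff]
    refine ⟨-b, ?_⟩
    show (d₀₁ B).hom (-b) = ((z : G → B) - (d₀₁ B).hom b) - z
    rw [map_neg]; abel
  · rintro ⟨y, hy⟩
    obtain ⟨a, rfl⟩ := Submodule.Quotient.mk_surjective _ y
    rw [← hy]
    show 𝒰.H1π C (𝒰.Z₁map ψ h.equivariant_right (𝒰.Z₁map φ h.equivariant_left a)) = 0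
    have : 𝒰.Z₁map ψ h.equivariant_right (𝒰.Z₁map φ h.equivariant_left a) = 0 := by
      apply Subtype.ext
      funext g
      exact h.comp_eq_zero _
    rw [this, map_zero]

end ShortExact

end LevelStr

end Fermat.Agent.S55.Profin15
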