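/-
[PROFIN] 10a (helper15): the long exact sequence of level cohomology, part 2:
`H¹(B) → H¹(C) → H²(A) → H²(B) → H²(C)`.
-/
import Fermat.Agent.S55.Profin15.LES0

set_option autoImplicit false

universe u

open CategoryTheory groupCohomology

namespace Fermat.Agent.S55.Profin15

namespace LevelStr

variable {k G : Type u} [CommRing k] [Group G] (𝒰 : LevelStr G)
variable {A B C : Rep.{u} k G} {φ : A →ₗ[k] B} {ψ : B →ₗ[k] C}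

/-- level `1`-cochains modulo abstract `1`-coboundaries -/
abbrev Q₁ (M : Rep.{u} k G) : Type u := ↥(𝒰.C₁ M) ⧸ (coboundaries₁ M).comap (𝒰.C₁ M).subtype

/-- `d¹` restricted to level cochains, with values in level `2`-cocycles (smooth `M`) -/
noncomputable def dC₁ (M : Rep.{u} k G) (hM : 𝒰.IsSmooth M) : ↥(𝒰.C₁ M) →ₗ[k] ↥(𝒰.Z₂ M) :=
  ((d₁₂ M).hom.comp (𝒰.C₁ M).subtype).codRestrict (𝒰.Z₂ M) fun x =>
    ⟨coboundaries₂_le_cocycles₂ M ⟨(x : G → M), rfl⟩, hM.d₁₂_mem_C₂ x.2⟩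

@[simp] lemma coe_dC₁ (M : Rep.{u} k G) (hM : 𝒰.IsSmooth M) (x : ↥(𝒰.C₁ M)) :
    (𝒰.dC₁ M hM x : G × G → M) = (d₁₂ M).hom (x : G → M) := rfl

/-- `d¹ : Q₁ M → Z²(𝒰; M)` -/
noncomputable def dQ₁ (M : Rep.{u} k G) (hM : 𝒰.IsSmooth M) : 𝒰.Q₁ M →ₗ[k] ↥(𝒰.Z₂ M) :=
  Submodule.liftQ _ (𝒰.dC₁ M hM) (by
    rintro x ⟨m, hm⟩
    rw [LinearMap.mem_ker]
    apply Subtype.ext
    show (d₁₂ M).hom (x : G → M) = 0
    have hx : (x : G → M) = (d₀₁ M).hom m := hm.symm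
    rw [hx]
    have : (d₀₁ M).hom m ∈ cocycles₁ M := coboundaries₁_le_cocycles₁ M ⟨m, rfl⟩
    exact this)

@[simp] lemma dQ₁_mk (M : Rep.{u} k G) (hM : 𝒰.IsSmooth M) (x : ↥(𝒰.C₁ M)) :
    𝒰.dQ₁ M hM (Submodule.Quotient.mk x) = 𝒰.dC₁ M hM x := rfl

/-- `H¹(𝒰; M) → Q₁ M` -/
def ιQ₁ (M : Rep.{u} k G) : 𝒰.H1 M →ₗ[k] 𝒰.Q₁ M :=
  Submodule.mapQ _ _ (Submodule.inclusion (inf_le_right : 𝒰.Z₁ M ≤ 𝒰.C₁ M))
    (fun _ hx => hx)

@[simp] lemma ιQ₁_mk (M : Rep.{u} k G) (x : ↥(𝒰.Z₁ M)) :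
    𝒰.ιQ₁ M (Submodule.Quotient.mk x) = Submodule.Quotient.mk ⟨(x : G → M), x.2.2⟩ := rfl

lemma ιQ₁_injective (M : Rep.{u} k G) : Function.Injective (𝒰.ιQ₁ M) := by
  rw [← LinearMap.ker_eq_bot, LinearMap.ker_eq_bot']
  intro x hx
  obtain ⟨z, rfl⟩ := Submodule.Quotient.mk_surjective _ x
  rw [ιQ₁_mk, Submodule.Quotient.mk_eq_zero] at hx
  rw [Submodule.Quotient.mk_eq_zero]
  exact hx

lemma exact_ιQ₁_dQ₁ (M : Rep.{u} k G) (hM : 𝒰.IsSmooth M) :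
    Function.Exact (𝒰.ιQ₁ M) (𝒰.dQ₁ M hM) := by
  intro x
  obtain ⟨y, rfl⟩ := Submodule.Quotient.mk_surjective _ x
  constructor
  · intro hy
    have hy' : (d₁₂ M).hom (y : G → M) = 0 := congrArg Subtype.val hy
    exact ⟨Submodule.Quotient.mk ⟨(y : G → M), hy', y.2⟩, rfl⟩
  · rintro ⟨z, hz⟩
    obtain ⟨z, rfl⟩ := Submodule.Quotient.mk_surjective _ z
    rw [← hz]
    apply Subtype.ext
    exact z.2.1

lemma exact_dQ₁_H2π (M : Rep.{u} k G) (hM : 𝒰.IsSmooth M) :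
    Function.Exact (𝒰.dQ₁ M hM) (𝒰.H2π M) := by
  intro z
  rw [H2π_eq_zero_iff, mem_B₂_iff]
  constructor
  · rintro ⟨x, hx, hxz⟩
    exact ⟨Submodule.Quotient.mk ⟨x, hx⟩, Subtype.ext hxz⟩
  · rintro ⟨x, rfl⟩
    obtain ⟨x, rfl⟩ := Submodule.Quotient.mk_surjective _ x
    exact ⟨x, x.2, rfl⟩

/-- the map on `Q₁` induced by an equivariant map -/
def Q₁map (φ : A →ₗ[k] B) (hφ : IsEquivariant φ) : 𝒰.Q₁ A →ₗ[k] 𝒰.Q₁ B :=
  Submodule.mapQ _ _ ((comp₁ φ).restrict fun _ hx => 𝒰.comp₁_mem_C₁ φ hx)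
    (fun _ hx => comp₁_mem_coboundaries₁ φ hφ hx)

@[simp] lemma Q₁map_mk (φ : A →ₗ[k] B) (hφ : IsEquivariant φ) (x : ↥(𝒰.C₁ A)) :
    𝒰.Q₁map φ hφ (Submodule.Quotient.mk x) =
      Submodule.Quotient.mk ⟨comp₁ φ (x : G → A), 𝒰.comp₁_mem_C₁ φ x.2⟩ := rfl

namespace ShortExact

variable (h : ShortExact φ ψ)
include h

lemma exact_Z₂map : Function.Exact (𝒰.Z₂map φ h.equivariant_left)
    (𝒰.Z₂map ψ h.equivariant_right) := by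
  intro z
  constructor
  · intro hz
    have hz' : comp₂ ψ (z : G × G → B) = 0 := congrArg Subtype.val hz
    obtain ⟨a, ha, hza⟩ := h.exists_comp₂_eq 𝒰 z.2.2 hz'
    have hac : a ∈ cocycles₂ A := h.mem_cocycles₂_of_comp₂ (by rw [hza]; exact z.2.1)
    exact ⟨⟨a, hac, ha⟩, Subtype.ext hza⟩
  · rintro ⟨a, rfl⟩
    apply Subtype.ext
    funext g
    exact h.comp_eq_zero _

lemma Z₂map_injective : Function.Injective (𝒰.Z₂map φ h.equivariant_left) := by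
  intro x y hxy
  apply Subtype.ext
  exact h.comp₂_injective (congrArg Subtype.val hxy)

lemma Q₁map_surjective : Function.Surjective (𝒰.Q₁map ψ h.equivariant_right) := by
  intro x
  obtain ⟨x, rfl⟩ := Submodule.Quotient.mk_surjective _ x
  obtain ⟨y, hy, hyx⟩ := h.exists_lift₁ 𝒰 x.2
  refine ⟨Submodule.Quotient.mk ⟨y, hy⟩, ?_⟩
  rw [Q₁map_mk]
  congr 1
  exact Subtype.ext hyx

variable (hB : 𝒰.IsSmooth B)
include hB

lemma exact_Q₁map : Function.Exact (𝒰.Q₁map φ h.equivariant_left)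
    (𝒰.Q₁map ψ h.equivariant_right) := by
  intro x
  obtain ⟨x, rfl⟩ := Submodule.Quotient.mk_surjective _ x
  constructor
  · intro hx
    rw [Q₁map_mk, Submodule.Quotient.mk_eq_zero] at hx
    obtain ⟨c, hc⟩ := hx
    obtain ⟨b, rfl⟩ := h.surjective c
    -- `x - d b` is killed by `ψ`
    have hx'mem : (x : G → B) - (d₀₁ B).hom b ∈ 𝒰.C₁ B :=
      Submodule.sub_mem _ x.2 (hB.coboundaries₁_le_C₁ ⟨b, rfl⟩)
    have hx'0 : comp₁ ψ ((x : G → B) - (d₀₁ B).hom b) = 0 := by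
      rw [map_sub, comp₁_d₀₁ ψ h.equivariant_right b]
      exact sub_eq_zero.2 hc.symm
    obtain ⟨a, ha, hax⟩ := h.exists_comp₁_eq 𝒰 hx'mem hx'0
    refine ⟨Submodule.Quotient.mk ⟨a, ha⟩, ?_⟩
    rw [Q₁map_mk, Submodule.Quotient.eq]
    refine ⟨-b, ?_⟩
    show (d₀₁ B).hom (-b) = comp₁ φ a - (x : G → B)
    rw [hax, map_neg]; abel
  · rintro ⟨y, hy⟩
    obtain ⟨a, rfl⟩ := Submodule.Quotient.mk_surjective _ y
    rw [← hy, Q₁map_mk, Q₁map_mk, Submodule.Quotient.mk_eq_zero]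
    refine ⟨0, ?_⟩
    rw [map_zero]
    symm
    funext g
    exact h.comp_eq_zero _

/-- the connecting map `δ¹ : H¹(𝒰; C) → H²(𝒰; A)` -/
noncomputable def δ₁ : 𝒰.H1 C →ₗ[k] 𝒰.H2 A :=
  SnakeLemma.δ' (𝒰.dQ₁ A (h.smooth_left 𝒰 hB)) (𝒰.dQ₁ B hB) (𝒰.dQ₁ C (h.smooth_right 𝒰 hB))
    (𝒰.Q₁map φ h.equivariant_left) (𝒰.Q₁map ψ h.equivariant_right) (h.exact_Q₁map 𝒰 hB)
    (𝒰.Z₂map φ h.equivariant_left) (𝒰.Z₂map ψ h.equivariant_right) (h.exact_Z₂map 𝒰)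
    (by
      ext x : 2
      apply Subtype.ext
      exact comp₂_d₁₂ φ h.equivariant_left (x : G → A))
    (by
      ext x : 2
      apply Subtype.ext
      exact comp₂_d₁₂ ψ h.equivariant_right (x : G → B))
    (𝒰.ιQ₁ C) (𝒰.exact_ιQ₁_dQ₁ C (h.smooth_right 𝒰 hB))
    (𝒰.H2π A) (𝒰.exact_dQ₁_H2π A (h.smooth_left 𝒰 hB))
    (h.Q₁map_surjective 𝒰) (h.Z₂map_injective 𝒰)

/-- formula for `δ¹`: if `y` is a level cochain of `B` lifting the cocycle `c` of `C` and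
`φ ∘ a = d¹ y`, then `δ¹ [c] = [a]`. -/
lemma δ₁_eq (c : ↥(𝒰.Z₁ C)) (y : G → B) (hy : y ∈ 𝒰.C₁ B) (hyc : comp₁ ψ y = (c : G → C))
    (a : ↥(𝒰.Z₂ A)) (ha : comp₂ φ (a : G × G → A) = (d₁₂ B).hom y) :
    h.δ₁ 𝒰 hB (𝒰.H1π C c) = 𝒰.H2π A a := by
  refine SnakeLemma.δ'_eq _ _ _ _ _ _ _ _ _ _ _ _ _ _ _ _ _ (𝒰.H1π C c)
    (Submodule.Quotient.mk ⟨y, hy⟩) ?_ a ?_
  · rw [Q₁map_mk]
    show _ = 𝒰.ιQ₁ C (Submodule.Quotient.mk c)
    rw [ιQ₁_mk]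
    congr 1
    exact Subtype.ext hyc
  · apply Subtype.ext
    exact ha

/-- exactness at `H¹(C)` -/
theorem exact_H1map_δ₁ : Function.Exact (𝒰.H1map ψ h.equivariant_right) (h.δ₁ 𝒰 hB) :=
  SnakeLemma.exact_δ'_right _ _ _ _ _ _ _ _ _ _ _ (𝒰.ιQ₁ B)
    (𝒰.exact_ιQ₁_dQ₁ B hB) _ _ _ _ _ _ (𝒰.H1map ψ h.equivariant_right)
    (by
      ext x
      rfl) (𝒰.ιQ₁_injective C)

/-- exactness at `H²(A)` -/
theorem exact_δ₁_H2map : Function.Exact (h.δ₁ 𝒰 hB) (𝒰.H2map φ h.equivariant_left) :=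
  SnakeLemma.exact_δ'_left _ _ _ _ _ _ _ _ _ _ _ _ _ _ _ (𝒰.H2π B) (𝒰.exact_dQ₁_H2π B hB)
    _ _ (𝒰.H2map φ h.equivariant_left) (by ext x; rfl) (Submodule.mkQ_surjective _)

/-- exactness at `H²(B)` -/
theorem exact_H2map_H2map :
    Function.Exact (𝒰.H2map φ h.equivariant_left) (𝒰.H2map ψ h.equivariant_right) := by
  intro x
  obtain ⟨z, rfl⟩ := Submodule.Quotient.mk_surjective _ x
  constructor
  · intro hz
    have hz' : 𝒰.H2π C (𝒰.Z₂map ψ h.equivariant_right z) = 0 := hz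
    rw [H2π_eq_zero_iff, mem_B₂_iff] at hz'
    obtain ⟨y, hy, hyz⟩ := hz'
    obtain ⟨y', hy', rfl⟩ := h.exists_lift₁ 𝒰 hy
    -- `z - d y'` is killed by `ψ`
    let z' : ↥(𝒰.Z₂ B) := z - 𝒰.dC₁ B hB ⟨y', hy'⟩
    have hz'0 : 𝒰.Z₂map ψ h.equivariant_right z' = 0 := by
      apply Subtype.ext
      show comp₂ ψ ((z : G × G → B) - (d₁₂ B).hom y') = 0
      rw [map_sub, comp₂_d₁₂ ψ h.equivariant_right y']
      exact sub_eq_zero.2 hyz.symm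
    obtain ⟨a, ha⟩ := (h.exact_Z₂map 𝒰 z').1 hz'0
    refine ⟨𝒰.H2π A a, ?_⟩
    show 𝒰.H2π B (𝒰.Z₂map φ h.equivariant_left a) = 𝒰.H2π B z
    rw [ha, ← sub_eq_zero, ← map_sub, H2π_eq_zero_iff, mem_B₂_iff]
    refine ⟨-y', (𝒰.C₁ B).neg_mem hy', ?_⟩
    show (d₁₂ B).hom (-y') = ((z : G × G → B) - (d₁₂ B).hom y') - z
    rw [map_neg]; abel
  · rintro ⟨y, hy⟩
    obtain ⟨a, rfl⟩ := Submodule.Quotient.mk_surjective _ y
    rw [← hy]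
    show 𝒰.H2π C (𝒰.Z₂map ψ h.equivariant_right (𝒰.Z₂map φ h.equivariant_left a)) = 0
    have : 𝒰.Z₂map ψ h.equivariant_right (𝒰.Z₂map φ h.equivariant_left a) = 0 := by
      apply Subtype.ext
      funext g
      exact h.comp_eq_zero _
    rw [this, map_zero]

end ShortExact

end LevelStr

end Fermat.Agent.S55.Profin15
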