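/-
[PROFIN] 10a (helper15): GLOBAL `H¹`.  The Prelude's `continuousH1S S M ⊆ H¹(G_ℚ, M)` is the
union of the (injective) inflations from the finite levels, equivalently the classes which
die on restriction to some `S`-level.  Generic statements for any level structure first.
-/
import Fermat.Agent.S55.Profin15.Global

set_option autoImplicit false

universe u

open CategoryTheory groupCohomology

namespace Fermat.Agent.S55.Profin15

namespace LevelStr

variable {k G : Type u} [CommRing k] [Group G] (𝒰 : LevelStr G) (M : Rep k G)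

/-- restriction `H¹(G, M) → H¹(U, M)` -/
noncomputable abbrev resH1 (U : Subgroup G) :
    groupCohomology.H1 M →ₗ[k] groupCohomology.H1 (Rep.res U.subtype M) :=
  (groupCohomology.map U.subtype (𝟙 (Rep.res U.subtype M)) 1).hom

variable {M}

/-- a cocycle which is constant modulo `U` vanishes on `U` -/
lemma cocycle_apply_eq_zero_of_const {c : cocycles₁ M} {U : Subgroup G}
    (h : ∀ g s, s ∈ U → c (g * s) = c g) {s : G} (hs : s ∈ U) : c s = 0 := by
  have := h 1 s hs
  rwa [one_mul, cocycles₁_map_one] at this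

/-- a cocycle vanishing on `U` is constant modulo `U` -/
lemma cocycle_const_of_apply_eq_zero {c : cocycles₁ M} {U : Subgroup G}
    (h : ∀ s ∈ U, c s = 0) (g s : G) (hs : s ∈ U) : c (g * s) = c g := by
  rw [(mem_cocycles₁_iff c).1 c.2 g s, h s hs, map_zero, zero_add]

/-- restriction of the class of a cocycle dies iff the cocycle is a coboundary on `U` -/
theorem resH1_H1π_eq_zero_iff (c : cocycles₁ M) (U : Subgroup G) :
    resH1 M U ((groupCohomology.H1π M).hom c) = 0 ↔ ∃ m : M, ∀ s ∈ U, c s = M.ρ s m - m := by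
  have e : resH1 M U ((groupCohomology.H1π M).hom c) =
      (groupCohomology.H1π (Rep.res U.subtype M))
        (mapCocycles₁ U.subtype (𝟙 (Rep.res U.subtype M)) c) :=
    H1π_comp_map_apply U.subtype (𝟙 (Rep.res U.subtype M)) c
  rw [e, groupCohomology.H1π_eq_zero_iff]
  constructor
  · rintro ⟨(m : M), hm⟩
    refine ⟨m, fun s hs => ?_⟩
    have := congr_fun hm.symm ⟨s, hs⟩
    simpa [coe_mapCocycles₁ (x := c)] using this
  · rintro ⟨m, hm⟩
    refine ⟨m, ?_⟩
    ext s
    have := hm s.1 s.2
    simpa [coe_mapCocycles₁ (x := c)] using this.symm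

theorem resH1_eq_zero_of_le {U V : Subgroup G} (h : V ≤ U) (x : groupCohomology.H1 M)
    (hx : resH1 M U x = 0) : resH1 M V x = 0 := by
  induction x using H1_induction_on with | @h c =>
  have hx' : resH1 M U ((groupCohomology.H1π M).hom c) = 0 := hx
  obtain ⟨m, hm⟩ := (resH1_H1π_eq_zero_iff c U).1 hx'
  exact (resH1_H1π_eq_zero_iff c V).2 ⟨m, fun s hs => hm s (h hs)⟩

/-- **Level classes = classes dying on some level.** -/
theorem exists_isConst₁_iff_exists_resH1_eq_zero (x : groupCohomology.H1 M) :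
    (∃ c : cocycles₁ M, 𝒰.IsConst₁ c ∧ (groupCohomology.H1π M).hom c = x) ↔
      ∃ U ∈ 𝒰.levels, resH1 M U x = 0 := by
  constructor
  · rintro ⟨c, ⟨U, hU, hc⟩, rfl⟩
    refine ⟨U, hU, (resH1_H1π_eq_zero_iff c U).2 ⟨0, fun s hs => ?_⟩⟩
    rw [cocycle_apply_eq_zero_of_const hc hs, map_zero, sub_zero]
  · rintro ⟨U, hU, hx⟩
    induction x using H1_induction_on with | @h c =>
    have hx' : resH1 M U ((groupCohomology.H1π M).hom c) = 0 := hx
    obtain ⟨m, h2⟩ := (resH1_H1π_eq_zero_iff c U).1 hx'
    -- subtract the coboundary of `m`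
    let c' : cocycles₁ M := c - ⟨(d₀₁ M).hom m, coboundaries₁_le_cocycles₁ M ⟨m, rfl⟩⟩
    have hc'0 : ∀ s ∈ U, c' s = 0 := fun s hs => by
      show c s - (M.ρ s m - m) = 0
      rw [h2 s hs, sub_self]
    refine ⟨c', ⟨U, hU, cocycle_const_of_apply_eq_zero hc'0⟩, ?_⟩
    show (groupCohomology.H1π M) c' = (groupCohomology.H1π M) c
    rw [groupCohomology.H1π_eq_iff]
    refine ⟨-m, ?_⟩
    ext g
    show M.ρ g (-m) - (-m) = (c g - (M.ρ g m - m)) - c g
    rw [map_neg]; abel

variable (M)

/-- The level classes form the union of the ranges of the inflation maps from the levels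
(Mathlib's `H1InfRes`); each inflation is injective (`Mono (H1InfRes M U).f`). -/
theorem exists_isConst₁_iff_exists_mem_range_inf (x : groupCohomology.H1 M) :
    (∃ c : cocycles₁ M, 𝒰.IsConst₁ c ∧ (groupCohomology.H1π M).hom c = x) ↔
      ∃ (U : Subgroup G) (hU : U ∈ 𝒰.levels),
        haveI := 𝒰.normal U hU
        x ∈ LinearMap.range (H1InfRes M U).f.hom := by
  rw [exists_isConst₁_iff_exists_resH1_eq_zero]
  constructor
  · rintro ⟨U, hU, hx⟩
    refine ⟨U, hU, ?_⟩
    haveI := 𝒰.normal U hU
    have hex := (H1InfRes_exact M U)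
    rw [ShortComplex.moduleCat_exact_iff_ker_sub_range] at hex
    exact hex hx
  · rintro ⟨U, hU, hx⟩
    haveI := 𝒰.normal U hU
    refine ⟨U, hU, ?_⟩
    obtain ⟨y, rfl⟩ := hx
    have := (H1InfRes M U).zero
    exact congr($this y)

end LevelStr

open Fermat.Agent.Lib.FrobeniusExists

section Global

variable (S : Finset Nat.Primes) {k : Type} [CommRing k] (M : Rep k GQ)

/-- **GLOBAL H¹, form 1**: `continuousH1S S M` = classes dying on restriction to some
`S`-level. -/
theorem mem_continuousH1S_iff_exists_res_eq_zero (x : groupCohomology.H1 M) :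
    x ∈ continuousH1S S M ↔
      ∃ U ∈ (globalLevels S).levels, LevelStr.resH1 M U x = 0 := by
  rw [mem_continuousH1S_iff, ← LevelStr.exists_isConst₁_iff_exists_resH1_eq_zero]
  simp only [isLevelConstantS₁_iff]

/-- **GLOBAL H¹, form 2**: `continuousH1S S M` = union of the (injective) inflations
`H¹(G_ℚ ⧸ U, M^U) → H¹(G_ℚ, M)` over the `S`-levels `U`. -/
theorem mem_continuousH1S_iff_exists_mem_range_inf (x : groupCohomology.H1 M) :
    x ∈ continuousH1S S M ↔
      ∃ (U : Subgroup GQ) (hU : U ∈ (globalLevels S).levels),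
        haveI := (globalLevels S).normal U hU
        x ∈ LinearMap.range (H1InfRes M U).f.hom := by
  rw [mem_continuousH1S_iff, ← LevelStr.exists_isConst₁_iff_exists_mem_range_inf]
  simp only [isLevelConstantS₁_iff]

/-- Field form of form 1: a class is in `continuousH1S S M` iff it dies on
`Gal(ℚ̄/F)` for some finite `F` unramified outside `S`. -/
theorem mem_continuousH1S_iff_exists_field (x : groupCohomology.H1 M) :
    x ∈ continuousH1S S M ↔
      ∃ F : IntermediateField ℚ Qb, F.IsUnramifiedOutside S ∧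
        LevelStr.resH1 M F.fixingSubgroup x = 0 := by
  rw [mem_continuousH1S_iff_exists_res_eq_zero]
  constructor
  · rintro ⟨U, ⟨_, F, hF, rfl⟩, hx⟩
    exact ⟨F, hF, hx⟩
  · rintro ⟨F, hF, hx⟩
    obtain ⟨U, hU, hle⟩ := exists_level_le hF
    exact ⟨U, hU, LevelStr.resH1_eq_zero_of_le hle x hx⟩

end Global

end Fermat.Agent.S55.Profin15
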