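/-
[PROFIN] 10a (helper15): the Prelude's `continuousH1S`, `continuousH2S` are the level cohomology
groups of `globalLevels S`.
-/
import Fermat.Agent.S55.Profin15.GlobalH1

set_option autoImplicit false

universe u

open CategoryTheory groupCohomology

namespace Fermat.Agent.S55.Profin15

section Generic

variable {R X : Type*} [CommRing R] [AddCommGroup X] [Module R X]

/-- Quotients `Z ⧸ (B ∩ Z)` of equal data are linearly equivalent. -/
noncomputable def quotEquivOfEq {Z Z' B B' : Submodule R X} (hZ : Z = Z') (hB : B = B') :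
    (↥Z ⧸ B.comap Z.subtype) ≃ₗ[R] (↥Z' ⧸ B'.comap Z'.subtype) :=
  Submodule.Quotient.equiv _ _ (LinearEquiv.ofEq Z Z' hZ) (by
    subst hZ hB
    ext x
    simp)

@[simp]
lemma quotEquivOfEq_mk {Z Z' B B' : Submodule R X} (hZ : Z = Z') (hB : B = B') (x : ↥Z) :
    quotEquivOfEq hZ hB (Submodule.Quotient.mk x) =
      Submodule.Quotient.mk ⟨(x : X), hZ ▸ x.2⟩ := rfl

end Generic

namespace LevelStr

variable {k G : Type u} [CommRing k] [Group G] (𝒰 : LevelStr G) (M : Rep k G)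

/-- level cocycles as abstract cocycles -/
def Z₁ToCocycles : ↥(𝒰.Z₁ M) →ₗ[k] ↥(cocycles₁ M) :=
  Submodule.inclusion (inf_le_left : 𝒰.Z₁ M ≤ cocycles₁ M)

/-- The comparison map `H¹(𝒰; M) → H¹(G, M)` to abstract group cohomology. -/
noncomputable def H1ToH1 : 𝒰.H1 M →ₗ[k] groupCohomology.H1 M :=
  Submodule.liftQ _ ((groupCohomology.H1π M).hom ∘ₗ 𝒰.Z₁ToCocycles M) (by
    intro c hc
    rw [LinearMap.mem_ker, LinearMap.comp_apply]
    exact (groupCohomology.H1π_eq_zero_iff _).2 hc)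

@[simp]
lemma H1ToH1_mk (c : ↥(𝒰.Z₁ M)) :
    𝒰.H1ToH1 M (Submodule.Quotient.mk c) =
      (groupCohomology.H1π M).hom (𝒰.Z₁ToCocycles M c) := rfl

lemma H1ToH1_injective : Function.Injective (𝒰.H1ToH1 M) := by
  rw [← LinearMap.ker_eq_bot, LinearMap.ker_eq_bot']
  intro x hx
  obtain ⟨c, rfl⟩ := Submodule.Quotient.mk_surjective _ x
  rw [H1ToH1_mk] at hx
  rw [Submodule.Quotient.mk_eq_zero, Submodule.mem_comap]
  exact (groupCohomology.H1π_eq_zero_iff _).1 hx

lemma mem_range_H1ToH1_iff (x : groupCohomology.H1 M) :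
    x ∈ LinearMap.range (𝒰.H1ToH1 M) ↔
      ∃ c : cocycles₁ M, 𝒰.IsConst₁ c ∧ (groupCohomology.H1π M).hom c = x := by
  constructor
  · rintro ⟨y, rfl⟩
    obtain ⟨c, rfl⟩ := Submodule.Quotient.mk_surjective _ y
    exact ⟨𝒰.Z₁ToCocycles M c, c.2.2, rfl⟩
  · rintro ⟨c, hc, rfl⟩
    exact ⟨Submodule.Quotient.mk ⟨c.1, c.2, hc⟩, rfl⟩

/-- `H¹(𝒰; M)` as a submodule of abstract `H¹(G, M)`. -/
noncomputable def H1EquivRange : 𝒰.H1 M ≃ₗ[k] ↥(LinearMap.range (𝒰.H1ToH1 M)) :=
  LinearEquiv.ofInjective _ (𝒰.H1ToH1_injective M)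

end LevelStr

open Fermat.Agent.Lib.FrobeniusExists

section Global

variable (S : Finset Nat.Primes) {k : Type} [CommRing k] (M : Rep k GQ)

/-- `continuousH2S S M ≃ H²(globalLevels S; M)`, the identity on cocycles. -/
noncomputable def continuousH2SEquiv : continuousH2S S M ≃ₗ[k] (globalLevels S).H2 M :=
  quotEquivOfEq (levelCocyclesS₂_eq S M) (levelCoboundariesS₂_eq S M)

@[simp]
lemma continuousH2SEquiv_mk (f : ↥(levelCocyclesS₂ S M)) :
    continuousH2SEquiv S M (continuousH2Sπ S M f) =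
      (globalLevels S).H2π M ⟨(f : GQ × GQ → M), levelCocyclesS₂_eq S M ▸ f.2⟩ := rfl

theorem continuousH1S_eq_range : continuousH1S S M = LinearMap.range ((globalLevels S).H1ToH1 M) := by
  ext x
  rw [mem_continuousH1S_iff, LevelStr.mem_range_H1ToH1_iff]
  simp only [isLevelConstantS₁_iff]

/-- `continuousH1S S M ≃ H¹(globalLevels S; M)`. -/
noncomputable def continuousH1SEquiv : ↥(continuousH1S S M) ≃ₗ[k] (globalLevels S).H1 M :=
  (LinearEquiv.ofEq _ _ (continuousH1S_eq_range S M)).trans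
    ((globalLevels S).H1EquivRange M).symm

lemma continuousH1SEquiv_symm_apply (y : (globalLevels S).H1 M) :
    (((continuousH1SEquiv S M).symm y : ↥(continuousH1S S M)) : groupCohomology.H1 M) =
      (globalLevels S).H1ToH1 M y := rfl

end Global

end Fermat.Agent.S55.Profin15
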