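/-
[PROFIN] 10a (helper15): pull-back of level structures along group homomorphisms, restriction
maps on level cohomology, and the identification of the Prelude's `IsLevelConstant₁/₂ r`,
`continuousH2 r` (local cohomology) with level cohomology.
-/
import Fermat.Agent.S55.Profin15.Bridge
import Fermat.Agent.S55.Profin15.Functor

set_option autoImplicit false
set_option linter.style.haveILetI false

universe u

open CategoryTheory groupCohomology

namespace Fermat.Agent.S55.Profin15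

namespace LevelStr

variable {G H : Type u} [Group G] [Group H]

/-- Pull-back of a level structure along a group homomorphism. -/
def comap (𝒰 : LevelStr G) (f : H →* G) : LevelStr H where
  levels := {V | ∃ U ∈ 𝒰.levels, V = U.comap f}
  nonempty := by
    obtain ⟨U, hU⟩ := 𝒰.nonempty
    exact ⟨U.comap f, U, hU, rfl⟩
  normal := by
    rintro V ⟨U, hU, rfl⟩
    haveI := 𝒰.normal U hU
    exact Subgroup.Normal.comap inferInstance f
  finiteIndex := by
    rintro V ⟨U, hU, rfl⟩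
    haveI := 𝒰.finiteIndex U hU
    refine ⟨?_⟩
    rw [Subgroup.index_comap]
    exact (Subgroup.isFiniteRelIndex_of_finiteIndex (H := U) (K := f.range)).relIndex_ne_zero
  directed := by
    rintro V ⟨U, hU, rfl⟩ V' ⟨U', hU', rfl⟩
    obtain ⟨W, hW, hle⟩ := 𝒰.directed U hU U' hU'
    refine ⟨W.comap f, ⟨W, hW, rfl⟩, ?_⟩
    rw [← Subgroup.comap_inf]
    exact Subgroup.comap_mono hle

lemma mem_comap_levels {𝒰 : LevelStr G} {f : H →* G} {V : Subgroup H} :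
    V ∈ (𝒰.comap f).levels ↔ ∃ U ∈ 𝒰.levels, V = U.comap f := Iff.rfl

lemma isConst₁_comap_iff (𝒰 : LevelStr G) (f : H →* G) {X : Type*} (x : H → X) :
    (𝒰.comap f).IsConst₁ x ↔ ∃ U ∈ 𝒰.levels, ∀ g s, f s ∈ U → x (g * s) = x g := by
  constructor
  · rintro ⟨V, ⟨U, hU, rfl⟩, h⟩
    exact ⟨U, hU, fun g s hs => h g s hs⟩
  · rintro ⟨U, hU, h⟩
    exact ⟨U.comap f, ⟨U, hU, rfl⟩, fun g s hs => h g s hs⟩

lemma isConst₂_comap_iff (𝒰 : LevelStr G) (f : H →* G) {X : Type*} (x : H × H → X) :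
    (𝒰.comap f).IsConst₂ x ↔ ∃ U ∈ 𝒰.levels, ∀ g g' s s', f s ∈ U → f s' ∈ U →
      x (g * s, g' * s') = x (g, g') := by
  constructor
  · rintro ⟨V, ⟨U, hU, rfl⟩, h⟩
    exact ⟨U, hU, fun g g' s s' hs hs' => h g g' s s' hs hs'⟩
  · rintro ⟨U, hU, h⟩
    exact ⟨U.comap f, ⟨U, hU, rfl⟩, fun g g' s s' hs hs' => h g g' s s' hs hs'⟩

/-- level cochains pull back to level cochains -/
lemma IsConst₁.precomp {𝒰 : LevelStr G} (f : H →* G) {X : Type*} {x : G → X}
    (hx : 𝒰.IsConst₁ x) : (𝒰.comap f).IsConst₁ (x ∘ f) := by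
  obtain ⟨U, hU, h⟩ := hx
  refine (isConst₁_comap_iff 𝒰 f _).2 ⟨U, hU, fun g s hs => ?_⟩
  simp only [Function.comp_apply, map_mul]
  exact h (f g) (f s) hs

lemma IsConst₂.precomp {𝒰 : LevelStr G} (f : H →* G) {X : Type*} {x : G × G → X}
    (hx : 𝒰.IsConst₂ x) : (𝒰.comap f).IsConst₂ (x ∘ Prod.map f f) := by
  obtain ⟨U, hU, h⟩ := hx
  refine (isConst₂_comap_iff 𝒰 f _).2 ⟨U, hU, fun g g' s s' hs hs' => ?_⟩
  simp only [Function.comp_apply, Prod.map_apply, map_mul]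
  exact h (f g) (f g') (f s) (f s') hs hs'

lemma IsSmooth.res {k : Type u} [CommRing k] {𝒰 : LevelStr G} {M : Rep.{u} k G}
    (hM : 𝒰.IsSmooth M) (f : H →* G) : (𝒰.comap f).IsSmooth (Rep.res f M) := by
  intro m
  obtain ⟨U, hU, h⟩ := hM m
  exact ⟨U.comap f, ⟨U, hU, rfl⟩, fun s hs => h (f s) hs⟩

section Restriction

variable {k : Type u} [CommRing k] (𝒰 : LevelStr G) (f : H →* G) (M : Rep.{u} k G)

/-- pull-back of `1`-cochains along `f` -/
def pull₁ : (G → M) →ₗ[k] (H → Rep.res f M) where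
  toFun x := x ∘ f
  map_add' _ _ := rfl
  map_smul' _ _ := rfl

/-- pull-back of `2`-cochains along `f` -/
def pull₂ : (G × G → M) →ₗ[k] (H × H → Rep.res f M) where
  toFun x := x ∘ Prod.map f f
  map_add' _ _ := rfl
  map_smul' _ _ := rfl

@[simp] lemma pull₁_apply (x : G → M) (h : H) : pull₁ f M x h = x (f h) := rfl
@[simp] lemma pull₂_apply (x : G × G → M) (h : H × H) : pull₂ f M x h = x (f h.1, f h.2) := rfl

lemma pull₁_d₀₁ (m : M) : pull₁ f M ((d₀₁ M).hom m) = (d₀₁ (Rep.res f M)).hom m := by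
  ext h
  simp [d₀₁_hom_apply]

lemma pull₂_d₁₂ (x : G → M) :
    pull₂ f M ((d₁₂ M).hom x) = (d₁₂ (Rep.res f M)).hom (pull₁ f M x) := by
  ext ⟨h, h'⟩
  simp [d₁₂_hom_apply]

lemma pull₁_mem_cocycles₁ {x : G → M} (hx : x ∈ cocycles₁ M) :
    pull₁ f M x ∈ cocycles₁ (Rep.res f M) := by
  rw [mem_cocycles₁_iff] at hx ⊢
  intro g h
  simp only [pull₁_apply, map_mul, hx]
  rfl

lemma pull₂_mem_cocycles₂ {x : G × G → M} (hx : x ∈ cocycles₂ M) :
    pull₂ f M x ∈ cocycles₂ (Rep.res f M) := by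
  rw [mem_cocycles₂_iff] at hx ⊢
  intro g h j
  simp only [pull₂_apply, map_mul, hx]
  rfl

lemma pull₁_mem_Z₁ {x : G → M} (hx : x ∈ 𝒰.Z₁ M) :
    pull₁ f M x ∈ (𝒰.comap f).Z₁ (Rep.res f M) :=
  ⟨pull₁_mem_cocycles₁ f M hx.1, IsConst₁.precomp f hx.2⟩

lemma pull₂_mem_Z₂ {x : G × G → M} (hx : x ∈ 𝒰.Z₂ M) :
    pull₂ f M x ∈ (𝒰.comap f).Z₂ (Rep.res f M) :=
  ⟨pull₂_mem_cocycles₂ f M hx.1, IsConst₂.precomp f hx.2⟩

lemma pull₁_mem_coboundaries₁ {x : G → M} (hx : x ∈ coboundaries₁ M) :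
    pull₁ f M x ∈ coboundaries₁ (Rep.res f M) := by
  obtain ⟨m, rfl⟩ := hx
  exact ⟨m, (pull₁_d₀₁ f M m).symm⟩

lemma pull₂_mem_B₂ {x : G × G → M} (hx : x ∈ 𝒰.B₂ M) :
    pull₂ f M x ∈ (𝒰.comap f).B₂ (Rep.res f M) := by
  obtain ⟨y, hy, rfl⟩ := (𝒰.mem_B₂_iff M x).1 hx
  exact ((𝒰.comap f).mem_B₂_iff _ _).2
    ⟨pull₁ f M y, IsConst₁.precomp f hy, (pull₂_d₁₂ f M y).symm⟩

/-- restriction on level `1`-cocycles -/
def resZ₁ : ↥(𝒰.Z₁ M) →ₗ[k] ↥((𝒰.comap f).Z₁ (Rep.res f M)) :=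
  (pull₁ f M).restrict fun _ hx => 𝒰.pull₁_mem_Z₁ f M hx

/-- restriction on level `2`-cocycles -/
def resZ₂ : ↥(𝒰.Z₂ M) →ₗ[k] ↥((𝒰.comap f).Z₂ (Rep.res f M)) :=
  (pull₂ f M).restrict fun _ hx => 𝒰.pull₂_mem_Z₂ f M hx

/-- **restriction** `H¹(𝒰; M) → H¹(𝒰.comap f; res M)` -/
def res₁ : 𝒰.H1 M →ₗ[k] (𝒰.comap f).H1 (Rep.res f M) :=
  Submodule.mapQ _ _ (𝒰.resZ₁ f M) fun _ hx => pull₁_mem_coboundaries₁ f M hx

/-- **restriction** `H²(𝒰; M) → H²(𝒰.comap f; res M)` -/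
def res₂ : 𝒰.H2 M →ₗ[k] (𝒰.comap f).H2 (Rep.res f M) :=
  Submodule.mapQ _ _ (𝒰.resZ₂ f M) fun _ hx => 𝒰.pull₂_mem_B₂ f M hx

@[simp] lemma res₁_H1π (x : ↥(𝒰.Z₁ M)) :
    𝒰.res₁ f M (𝒰.H1π M x) = (𝒰.comap f).H1π _ (𝒰.resZ₁ f M x) := rfl

@[simp] lemma res₂_H2π (x : ↥(𝒰.Z₂ M)) :
    𝒰.res₂ f M (𝒰.H2π M x) = (𝒰.comap f).H2π _ (𝒰.resZ₂ f M x) := rfl

end Restriction

end LevelStr

open Fermat.Agent.Lib.FrobeniusExists

attribute [local instance] isAlgebraic_Qb isAlgClosure_Qb isGalois_Qb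

/-- all finite levels of `G_ℚ` (no ramification condition) -/
noncomputable def allLevels : LevelStr GQ where
  levels := {U | U.Normal ∧ ∃ F : IntermediateField ℚ Qb, FiniteDimensional ℚ F ∧
    U = F.fixingSubgroup}
  nonempty := by
    haveI : FiniteDimensional ℚ (⊥ : IntermediateField ℚ Qb) := inferInstance
    obtain ⟨F', _, hfin, hn, _⟩ := exists_normal_ge (⊥ : IntermediateField ℚ Qb)
    exact ⟨F'.fixingSubgroup, hn, F', hfin, rfl⟩
  normal := fun U hU => hU.1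
  finiteIndex := by
    rintro U ⟨_, F, hF, rfl⟩
    exact fixingSubgroup_finiteIndex F
  directed := by
    rintro U ⟨hU, F, hF, rfl⟩ V ⟨hV, F', hF', rfl⟩
    refine ⟨(F ⊔ F').fixingSubgroup, ⟨?_, F ⊔ F', IntermediateField.finiteDimensional_sup F F',
      rfl⟩, ?_⟩
    · rw [IntermediateField.fixingSubgroup_sup]
      exact Subgroup.normal_inf_normal _ _
    · rw [IntermediateField.fixingSubgroup_sup]

lemma exists_allLevel_le (F : IntermediateField ℚ Qb) [FiniteDimensional ℚ F] :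
    ∃ U ∈ allLevels.levels, U ≤ F.fixingSubgroup := by
  obtain ⟨F', hle, hfin, hn, _⟩ := exists_normal_ge F
  exact ⟨F'.fixingSubgroup, ⟨hn, F', hfin, rfl⟩, IntermediateField.fixingSubgroup_antitone hle⟩

section Prelude

variable {H : Type} [Group H] (r : H →* GQ)

/-- the level structure on `H` induced from the finite levels of `G_ℚ` along `r`
(for `r = primeLocalToGlobal q` these are cofinal among the open normal subgroups of
`G_{ℚ_q}` by Krasner, see `Krasner81`). -/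
noncomputable def pullLevels : LevelStr H := allLevels.comap r

theorem isLevelConstant₁_iff {X : Type*} (x : H → X) :
    IsLevelConstant₁ r x ↔ (pullLevels r).IsConst₁ x := by
  rw [pullLevels, LevelStr.isConst₁_comap_iff]
  constructor
  · rintro ⟨F, hF, h⟩
    haveI := hF
    obtain ⟨U, hU, hle⟩ := exists_allLevel_le F
    exact ⟨U, hU, fun g s hs => h g s (hle hs)⟩
  · rintro ⟨U, ⟨_, F, hF, rfl⟩, h⟩
    exact ⟨F, hF, h⟩

theorem isLevelConstant₂_iff {X : Type*} (x : H × H → X) :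
    IsLevelConstant₂ r x ↔ (pullLevels r).IsConst₂ x := by
  rw [pullLevels, LevelStr.isConst₂_comap_iff]
  constructor
  · rintro ⟨F, hF, h⟩
    haveI := hF
    obtain ⟨U, hU, hle⟩ := exists_allLevel_le F
    exact ⟨U, hU, fun g g' s s' hs hs' => h g g' s s' (hle hs) (hle hs')⟩
  · rintro ⟨U, ⟨_, F, hF, rfl⟩, h⟩
    exact ⟨F, hF, h⟩

variable {k : Type} [CommRing k] (N : Rep k H)

theorem levelCochains₁_eq : levelCochains₁ r N = (pullLevels r).C₁ N := by
  ext f; exact isLevelConstant₁_iff r f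

theorem levelCochains₂_eq : levelCochains₂ r N = (pullLevels r).C₂ N := by
  ext f; exact isLevelConstant₂_iff r f

theorem levelCocycles₂_eq : levelCocycles₂ r N = (pullLevels r).Z₂ N := by
  rw [levelCocycles₂, LevelStr.Z₂, levelCochains₂_eq]

theorem levelCoboundaries₂_eq : levelCoboundaries₂ r N = (pullLevels r).B₂ N := by
  rw [levelCoboundaries₂, LevelStr.B₂, levelCochains₁_eq]

/-- the Prelude's `continuousH2 r N` is level cohomology of `pullLevels r` -/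
noncomputable def continuousH2Equiv : continuousH2 r N ≃ₗ[k] (pullLevels r).H2 N :=
  quotEquivOfEq (levelCocycles₂_eq r N) (levelCoboundaries₂_eq r N)

@[simp]
lemma continuousH2Equiv_mk (f : ↥(levelCocycles₂ r N)) :
    continuousH2Equiv r N (continuousH2π r N f) =
      (pullLevels r).H2π N ⟨(f : H × H → N), levelCocycles₂_eq r N ▸ f.2⟩ := rfl

end Prelude

end Fermat.Agent.S55.Profin15
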