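/-
[PROFIN] 10a (helper15): restriction along level-continuous homomorphisms, and the Prelude's
localisation maps `locRes₂S`, `locRes` in level-cohomology terms.
-/
import Fermat.Agent.S55.Profin15.Local

set_option autoImplicit false
set_option linter.style.haveILetI false

universe u

open CategoryTheory groupCohomology

namespace Fermat.Agent.S55.Profin15

namespace LevelStr

variable {G H : Type u} [Group G] [Group H]

/-- `f : H →* G` is level-continuous from `𝒱` to `𝒰`. -/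
def IsContinuous (𝒱 : LevelStr H) (𝒰 : LevelStr G) (f : H →* G) : Prop :=
  ∀ U ∈ 𝒰.levels, ∃ V ∈ 𝒱.levels, V ≤ U.comap f

lemma isContinuous_comap (𝒰 : LevelStr G) (f : H →* G) : IsContinuous (𝒰.comap f) 𝒰 f :=
  fun U hU => ⟨U.comap f, ⟨U, hU, rfl⟩, le_rfl⟩

variable {𝒱 : LevelStr H} {𝒰 : LevelStr G} {f : H →* G}

lemma IsContinuous.isConst₁ (hf : IsContinuous 𝒱 𝒰 f) {X : Type*} {x : G → X}
    (hx : 𝒰.IsConst₁ x) : 𝒱.IsConst₁ (x ∘ f) := by
  obtain ⟨U, hU, h⟩ := hx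
  obtain ⟨V, hV, hle⟩ := hf U hU
  refine ⟨V, hV, fun g s hs => ?_⟩
  simp only [Function.comp_apply, map_mul]
  exact h (f g) (f s) (hle hs)

lemma IsContinuous.isConst₂ (hf : IsContinuous 𝒱 𝒰 f) {X : Type*} {x : G × G → X}
    (hx : 𝒰.IsConst₂ x) : 𝒱.IsConst₂ (x ∘ Prod.map f f) := by
  obtain ⟨U, hU, h⟩ := hx
  obtain ⟨V, hV, hle⟩ := hf U hU
  refine ⟨V, hV, fun g g' s s' hs hs' => ?_⟩
  simp only [Function.comp_apply, Prod.map_apply, map_mul]
  exact h (f g) (f g') (f s) (f s') (hle hs) (hle hs')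

variable {k : Type u} [CommRing k] (M : Rep.{u} k G)

lemma IsContinuous.isSmooth (hf : IsContinuous 𝒱 𝒰 f) (hM : 𝒰.IsSmooth M) :
    𝒱.IsSmooth (Rep.res f M) := by
  intro m
  obtain ⟨U, hU, h⟩ := hM m
  obtain ⟨V, hV, hle⟩ := hf U hU
  exact ⟨V, hV, fun s hs => h (f s) (hle hs)⟩

variable (hf : IsContinuous 𝒱 𝒰 f)
include hf

lemma IsContinuous.pull₁_mem_Z₁ {x : G → M} (hx : x ∈ 𝒰.Z₁ M) :
    pull₁ f M x ∈ 𝒱.Z₁ (Rep.res f M) :=
  ⟨pull₁_mem_cocycles₁ f M hx.1, hf.isConst₁ hx.2⟩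

lemma IsContinuous.pull₂_mem_Z₂ {x : G × G → M} (hx : x ∈ 𝒰.Z₂ M) :
    pull₂ f M x ∈ 𝒱.Z₂ (Rep.res f M) :=
  ⟨pull₂_mem_cocycles₂ f M hx.1, hf.isConst₂ hx.2⟩

lemma IsContinuous.pull₂_mem_B₂ {x : G × G → M} (hx : x ∈ 𝒰.B₂ M) :
    pull₂ f M x ∈ 𝒱.B₂ (Rep.res f M) := by
  obtain ⟨y, hy, rfl⟩ := (𝒰.mem_B₂_iff M x).1 hx
  exact (𝒱.mem_B₂_iff _ _).2 ⟨pull₁ f M y, hf.isConst₁ hy, (pull₂_d₁₂ f M y).symm⟩

/-- restriction on level `1`-cocycles along a continuous homomorphism -/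
def IsContinuous.resZ₁ : ↥(𝒰.Z₁ M) →ₗ[k] ↥(𝒱.Z₁ (Rep.res f M)) :=
  (pull₁ f M).restrict fun _ hx => hf.pull₁_mem_Z₁ M hx

/-- restriction on level `2`-cocycles along a continuous homomorphism -/
def IsContinuous.resZ₂ : ↥(𝒰.Z₂ M) →ₗ[k] ↥(𝒱.Z₂ (Rep.res f M)) :=
  (pull₂ f M).restrict fun _ hx => hf.pull₂_mem_Z₂ M hx

/-- **restriction** `H¹(𝒰; M) → H¹(𝒱; res M)` along a level-continuous `f : H →* G` -/
def IsContinuous.res₁ : 𝒰.H1 M →ₗ[k] 𝒱.H1 (Rep.res f M) :=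
  Submodule.mapQ _ _ (hf.resZ₁ M) fun _ hx => pull₁_mem_coboundaries₁ f M hx

/-- **restriction** `H²(𝒰; M) → H²(𝒱; res M)` along a level-continuous `f : H →* G` -/
def IsContinuous.res₂ : 𝒰.H2 M →ₗ[k] 𝒱.H2 (Rep.res f M) :=
  Submodule.mapQ _ _ (hf.resZ₂ M) fun _ hx => hf.pull₂_mem_B₂ M hx

@[simp] lemma IsContinuous.res₁_H1π (x : ↥(𝒰.Z₁ M)) :
    hf.res₁ M (𝒰.H1π M x) = 𝒱.H1π _ (hf.resZ₁ M x) := rfl

@[simp] lemma IsContinuous.res₂_H2π (x : ↥(𝒰.Z₂ M)) :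
    hf.res₂ M (𝒰.H2π M x) = 𝒱.H2π _ (hf.resZ₂ M x) := rfl

@[simp] lemma IsContinuous.coe_resZ₁ (x : ↥(𝒰.Z₁ M)) :
    (hf.resZ₁ M x : H → Rep.res f M) = pull₁ f M x := rfl

@[simp] lemma IsContinuous.coe_resZ₂ (x : ↥(𝒰.Z₂ M)) :
    (hf.resZ₂ M x : H × H → Rep.res f M) = pull₂ f M x := rfl

/-- restriction is compatible with the comparison to abstract `H¹` -/
lemma IsContinuous.H1ToH1_res₁ (y : 𝒰.H1 M) :
    𝒱.H1ToH1 (Rep.res f M) (hf.res₁ M y) =
      (groupCohomology.map f (𝟙 (Rep.res f M)) 1).hom (𝒰.H1ToH1 M y) := by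
  obtain ⟨c, rfl⟩ := Submodule.Quotient.mk_surjective _ y
  show (groupCohomology.H1π (Rep.res f M)) _ =
    (groupCohomology.map f (𝟙 (Rep.res f M)) 1) ((groupCohomology.H1π M) (𝒰.Z₁ToCocycles M c))
  rw [H1π_comp_map_apply f]
  congr 1

end LevelStr

open Fermat.Agent.Lib.FrobeniusExists

section Prelude

variable (S : Finset Nat.Primes) {H : Type} [Group H] (r : H →* GQ)
variable {k : Type} [CommRing k] (M : Rep k GQ)

/-- every homomorphism to `G_ℚ` is continuous from `pullLevels` to the `S`-levels -/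
theorem isContinuous_pullLevels : LevelStr.IsContinuous (pullLevels r) (globalLevels S) r := by
  rintro U ⟨hn, F, hF, rfl⟩
  exact ⟨F.fixingSubgroup.comap r, ⟨F.fixingSubgroup, ⟨hn, F, hF.1, rfl⟩, rfl⟩, le_rfl⟩

/-- **The Prelude localisation `locRes₂S` is restriction in level cohomology.** -/
theorem continuousH2Equiv_locRes₂S (x : continuousH2S S M) :
    continuousH2Equiv r (Rep.res r M) (locRes₂S S M r x) =
      (isContinuous_pullLevels S r).res₂ M (continuousH2SEquiv S M x) := by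
  obtain ⟨c, rfl⟩ := Submodule.Quotient.mk_surjective _ x
  rfl

/-- **The Prelude localisation `locRes` on `continuousH1S` is restriction in level
cohomology** (after the comparison maps to abstract `H¹`). -/
theorem locRes_H1ToH1 {ι : Type} {Γv : ι → Type} [∀ v, Group (Γv v)] (loc : ∀ v, Γv v →* GQ)
    {K : Type} [Field K] (A : Rep K GQ) (v : ι) (y : (globalLevels S).H1 A) :
    (locRes loc A v).hom ((globalLevels S).H1ToH1 A y) =
      (pullLevels (loc v)).H1ToH1 (Rep.res (loc v) A)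
        ((isContinuous_pullLevels S (loc v)).res₁ A y) :=
  ((isContinuous_pullLevels S (loc v)).H1ToH1_res₁ A y).symm

/-- vanishing of the abstract localisation = vanishing of the level restriction -/
theorem locRes_H1ToH1_eq_zero_iff {ι : Type} {Γv : ι → Type} [∀ v, Group (Γv v)]
    (loc : ∀ v, Γv v →* GQ) {K : Type} [Field K] (A : Rep K GQ) (v : ι)
    (y : (globalLevels S).H1 A) :
    (locRes loc A v).hom ((globalLevels S).H1ToH1 A y) = 0 ↔
      (isContinuous_pullLevels S (loc v)).res₁ A y = 0 := by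
  rw [locRes_H1ToH1]
  constructor
  · intro h
    exact (pullLevels (loc v)).H1ToH1_injective _ (by rw [h, map_zero])
  · intro h
    rw [h, map_zero]

end Prelude

end Fermat.Agent.S55.Profin15
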