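/-
[PROFIN] 10a (helper15): naturality of the long exact sequence of level cohomology
(`LES0`, `LES1`): in morphisms of short exact sequences of coefficient modules, and in
restriction along level-continuous group homomorphisms.
-/
import Fermat.Agent.S55.Profin15.LES1
import Fermat.Agent.S55.Profin15.Restriction

set_option autoImplicit false

universe u

open CategoryTheory groupCohomology

namespace Fermat.Agent.S55.Profin15

namespace LevelStr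

variable {k G : Type u} [CommRing k] [Group G] (𝒰 : LevelStr G)
variable {A B C : Rep.{u} k G} {φ : A →ₗ[k] B} {ψ : B →ₗ[k] C}

namespace ShortExact

variable (h : ShortExact φ ψ) (hB : 𝒰.IsSmooth B)
include h hB

/-- every `δ⁰ c` is computed by some data `(b, a)` as in `δ₀_eq` -/
lemma exists_δ₀_data (c : ↥(H0 C)) :
    ∃ (b : B) (a : ↥(𝒰.Z₁ A)), ψ b = c ∧ comp₁ φ (a : G → A) = (d₀₁ B).hom b ∧
      h.δ₀ 𝒰 hB c = 𝒰.H1π A a := by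
  obtain ⟨b, hb⟩ := h.surjective (c : C)
  have h0 : 𝒰.Z₁map ψ h.equivariant_right (𝒰.dZ₁ B hB b) = 0 := by
    apply Subtype.ext
    show comp₁ ψ ((d₀₁ B).hom b) = 0
    rw [comp₁_d₀₁ ψ h.equivariant_right b, hb]
    have : (c : C) ∈ LinearMap.ker (d₀₁ C).hom := by
      rw [d₀₁_ker_eq_invariants]; exact c.2
    exact this
  obtain ⟨a, ha⟩ := (h.exact_Z₁map 𝒰 _).1 h0
  have ha' : comp₁ φ (a : G → A) = (d₀₁ B).hom b := congrArg Subtype.val ha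
  exact ⟨b, a, hb, ha', h.δ₀_eq 𝒰 hB c b hb a ha'⟩

/-- every `δ¹ [c]` is computed by some data `(y, a)` as in `δ₁_eq` -/
lemma exists_δ₁_data (c : ↥(𝒰.Z₁ C)) :
    ∃ (y : G → B) (_ : y ∈ 𝒰.C₁ B) (a : ↥(𝒰.Z₂ A)), comp₁ ψ y = (c : G → C) ∧
      comp₂ φ (a : G × G → A) = (d₁₂ B).hom y ∧ h.δ₁ 𝒰 hB (𝒰.H1π C c) = 𝒰.H2π A a := by
  obtain ⟨y, hy, hyc⟩ := h.exists_lift₁ 𝒰 c.2.2
  have h0 : 𝒰.Z₂map ψ h.equivariant_right (𝒰.dC₁ B hB ⟨y, hy⟩) = 0 := by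
    apply Subtype.ext
    show comp₂ ψ ((d₁₂ B).hom y) = 0
    rw [comp₂_d₁₂ ψ h.equivariant_right y, hyc]
    exact c.2.1
  obtain ⟨a, ha⟩ := (h.exact_Z₂map 𝒰 _).1 h0
  have ha' : comp₂ φ (a : G × G → A) = (d₁₂ B).hom y := congrArg Subtype.val ha
  exact ⟨y, hy, a, hyc, ha', h.δ₁_eq 𝒰 hB c y hy hyc a ha'⟩

omit hB

section Coefficients

variable {A' B' C' : Rep.{u} k G} {φ' : A' →ₗ[k] B'} {ψ' : B' →ₗ[k] C'}
  (h' : ShortExact φ' ψ') (hB' : 𝒰.IsSmooth B')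
  {α : A →ₗ[k] A'} {β : B →ₗ[k] B'} {γ : C →ₗ[k] C'}
  (hα : IsEquivariant α) (hβ : IsEquivariant β) (hγ : IsEquivariant γ)
  (hl : β ∘ₗ φ = φ' ∘ₗ α) (hr : γ ∘ₗ ψ = ψ' ∘ₗ β)
include hB hβ hl hr

/-- **naturality of `δ⁰`** in morphisms of short exact sequences -/
theorem H1map_δ₀ (c : ↥(H0 C)) :
    𝒰.H1map α hα (h.δ₀ 𝒰 hB c) = h'.δ₀ 𝒰 hB' (H0map γ hγ c) := by
  obtain ⟨b, a, hb, ha, hδ⟩ := h.exists_δ₀_data 𝒰 hB c
  rw [hδ, H1map_H1π]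
  symm
  refine h'.δ₀_eq 𝒰 hB' _ (β b) ?_ _ ?_
  · rw [coe_H0map, ← hb]
    exact (LinearMap.congr_fun hr b).symm
  · rw [coe_Z₁map, ← comp₁_d₀₁ β hβ b, ← ha]
    funext g
    exact (LinearMap.congr_fun hl (a.1 g)).symm

/-- **naturality of `δ¹`** in morphisms of short exact sequences -/
theorem H2map_δ₁ (x : 𝒰.H1 C) :
    𝒰.H2map α hα (h.δ₁ 𝒰 hB x) = h'.δ₁ 𝒰 hB' (𝒰.H1map γ hγ x) := by
  obtain ⟨c, rfl⟩ := Submodule.Quotient.mk_surjective _ x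
  obtain ⟨y, hy, a, hyc, ha, hδ⟩ := h.exists_δ₁_data 𝒰 hB c
  have hδ' : h.δ₁ 𝒰 hB (Submodule.Quotient.mk c) = 𝒰.H2π A a := hδ
  rw [hδ', H2map_H2π]
  symm
  refine h'.δ₁_eq 𝒰 hB' (𝒰.Z₁map γ hγ c) (comp₁ β y) (𝒰.comp₁_mem_C₁ β hy) ?_ _ ?_
  · rw [coe_Z₁map, ← hyc]
    funext g
    exact (LinearMap.congr_fun hr (y g)).symm
  · rw [coe_Z₂map, ← comp₂_d₁₂ β hβ y, ← ha]
    funext g
    exact (LinearMap.congr_fun hl (a.1 g)).symm

end Coefficients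

end ShortExact

/-! ### Restriction -/

section Restriction

variable {H : Type u} [Group H] (f : H →* G)

/-- a linear map between `G`-modules, seen as a linear map between the restricted modules -/
def resLin (φ : A →ₗ[k] B) : (Rep.res f A) →ₗ[k] (Rep.res f B) := φ

@[simp] lemma resLin_apply (φ : A →ₗ[k] B) (a : A) : resLin f φ a = φ a := rfl

lemma IsEquivariant.res {φ : A →ₗ[k] B} (hφ : IsEquivariant φ) :
    IsEquivariant (resLin f φ) := fun s a => hφ (f s) a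

lemma ShortExact.res (h : ShortExact φ ψ) : ShortExact (resLin f φ) (resLin f ψ) where
  equivariant_left := h.equivariant_left.res f
  equivariant_right := h.equivariant_right.res f
  injective := h.injective
  surjective := h.surjective
  exact := h.exact

/-- restriction on `H⁰` -/
def res₀ (M : Rep.{u} k G) : ↥(H0 M) →ₗ[k] ↥(H0 (Rep.res f M)) where
  toFun x := ⟨(x : M), fun s => x.2 (f s)⟩
  map_add' _ _ := rfl
  map_smul' _ _ := rfl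

@[simp] lemma coe_res₀ (M : Rep.{u} k G) (x : ↥(H0 M)) : ((res₀ f M x : Rep.res f M) : M) = x :=
  rfl

lemma res₀_H0map {φ : A →ₗ[k] B} (hφ : IsEquivariant φ) (x : ↥(H0 A)) :
    res₀ f B (H0map φ hφ x) = H0map (resLin f φ) (hφ.res f) (res₀ f A x) := rfl

variable {𝒰} {𝒱 : LevelStr H} {f} (hf : IsContinuous 𝒱 𝒰 f)

lemma IsContinuous.res₁_H1map {φ : A →ₗ[k] B} (hφ : IsEquivariant φ) (x : 𝒰.H1 A) :
    hf.res₁ B (𝒰.H1map φ hφ x) = 𝒱.H1map (resLin f φ) (hφ.res f) (hf.res₁ A x) := by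
  obtain ⟨c, rfl⟩ := Submodule.Quotient.mk_surjective _ x
  rfl

lemma IsContinuous.res₂_H2map {φ : A →ₗ[k] B} (hφ : IsEquivariant φ) (x : 𝒰.H2 A) :
    hf.res₂ B (𝒰.H2map φ hφ x) = 𝒱.H2map (resLin f φ) (hφ.res f) (hf.res₂ A x) := by
  obtain ⟨c, rfl⟩ := Submodule.Quotient.mk_surjective _ x
  rfl

variable (h : ShortExact φ ψ) (hB : 𝒰.IsSmooth B)

/-- **`δ⁰` commutes with restriction** -/
theorem IsContinuous.res₁_δ₀ (c : ↥(H0 C)) :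
    hf.res₁ A (h.δ₀ 𝒰 hB c) = (h.res f).δ₀ 𝒱 (hf.isSmooth B hB) (res₀ f C c) := by
  obtain ⟨b, a, hb, ha, hδ⟩ := h.exists_δ₀_data 𝒰 hB c
  rw [hδ, IsContinuous.res₁_H1π]
  symm
  refine (h.res f).δ₀_eq 𝒱 (hf.isSmooth B hB) (res₀ f C c) b hb (hf.resZ₁ A a) ?_
  rw [IsContinuous.coe_resZ₁, ← pull₁_d₀₁ f B b, ← ha]
  rfl

/-- **`δ¹` commutes with restriction** -/
theorem IsContinuous.res₂_δ₁ (x : 𝒰.H1 C) :
    hf.res₂ A (h.δ₁ 𝒰 hB x) = (h.res f).δ₁ 𝒱 (hf.isSmooth B hB) (hf.res₁ C x) := by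
  obtain ⟨c, rfl⟩ := Submodule.Quotient.mk_surjective _ x
  obtain ⟨y, hy, a, hyc, ha, hδ⟩ := h.exists_δ₁_data 𝒰 hB c
  have hδ' : h.δ₁ 𝒰 hB (Submodule.Quotient.mk c) = 𝒰.H2π A a := hδ
  rw [hδ', IsContinuous.res₂_H2π]
  symm
  refine (h.res f).δ₁_eq 𝒱 (hf.isSmooth B hB) (hf.resZ₁ C c) (pull₁ f B y) (hf.isConst₁ hy)
    ?_ _ ?_
  · rw [IsContinuous.coe_resZ₁, ← hyc]
    rfl
  · rw [IsContinuous.coe_resZ₂, ← pull₂_d₁₂ f B y, ← ha]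
    rfl

end Restriction

end LevelStr

end Fermat.Agent.S55.Profin15
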