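/-
[PROFIN] (helper15): comparison of the two "level `H²`" vocabularies on main:
`CDArith63.H2 𝒰 M.ρ` (helper63: `Representation`, `AddSubgroup` quotient, cross-ring `mapH2`)
and `Profin15.LevelStr.H2 𝒰 M` (`Rep k G`, `Submodule` quotient).  Identity on cocycles.
-/
import Fermat.Agent.S55.CDArith63.Formation
import Fermat.Agent.S55.Profin15.Restriction

set_option autoImplicit false

universe u

open CategoryTheory groupCohomology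

namespace Fermat.Agent.S55.Profin15.Adapter63

open Fermat.Agent.S55.Profin15 Fermat.Agent.S55.CDArith63

variable {k G : Type u} [CommRing k] [Group G] (𝒰 : LevelStr G) (M : Rep.{u} k G)

lemma d12_eq (a : G → M) : d12 M.ρ a = (d₁₂ M).hom a := by
  funext ⟨g, h⟩
  rw [d12_apply, d₁₂_hom_apply]

lemma d23_eq_zero_iff (c : G × G → M) : d23 M.ρ c = 0 ↔ c ∈ cocycles₂ M := by
  rw [mem_cocycles₂_def]
  constructor
  · intro h g h' j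
    have := congr_fun h (g, h', j)
    simpa using this
  · intro h
    funext ⟨g, h', j⟩
    simpa using h g h' j

/-- the two notions of level `2`-cocycles agree -/
lemma mem_Z2_iff_mem_Z₂ (c : G × G → M) : c ∈ Z2 𝒰 M.ρ ↔ c ∈ 𝒰.Z₂ M := by
  rw [CDArith63.mem_Z2_iff, d23_eq_zero_iff]
  exact ⟨fun h => ⟨h.2, h.1⟩, fun h => ⟨h.2, h.1⟩⟩

/-- the two notions of level `2`-coboundaries agree -/
lemma mem_B2_iff_mem_B₂ (c : G × G → M) : c ∈ B2 𝒰 M.ρ ↔ c ∈ 𝒰.B₂ M := by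
  rw [CDArith63.mem_B2_iff, LevelStr.mem_B₂_iff]
  constructor
  · rintro ⟨a, ha, rfl⟩
    exact ⟨a, ha, (d12_eq M a).symm⟩
  · rintro ⟨a, ha, rfl⟩
    exact ⟨a, ha, d12_eq M a⟩

/-- identity on cocycles, `CDArith63 → Profin15` -/
def toZ₂ : ↥(Z2 𝒰 M.ρ) →+ ↥(𝒰.Z₂ M) where
  toFun c := ⟨c.1, (mem_Z2_iff_mem_Z₂ 𝒰 M c.1).1 c.2⟩
  map_zero' := rfl
  map_add' _ _ := rfl

/-- identity on cocycles, `Profin15 → CDArith63` -/
def ofZ₂ : ↥(𝒰.Z₂ M) →+ ↥(Z2 𝒰 M.ρ) where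
  toFun c := ⟨c.1, (mem_Z2_iff_mem_Z₂ 𝒰 M c.1).2 c.2⟩
  map_zero' := rfl
  map_add' _ _ := rfl

@[simp] lemma coe_toZ₂ (c : ↥(Z2 𝒰 M.ρ)) : (toZ₂ 𝒰 M c : G × G → M) = c.1 := rfl
@[simp] lemma coe_ofZ₂ (c : ↥(𝒰.Z₂ M)) : (ofZ₂ 𝒰 M c : G × G → M) = c.1 := rfl

/-- `CDArith63.H2 𝒰 M.ρ → 𝒰.H2 M` -/
def toH2 : CDArith63.H2 𝒰 M.ρ →+ 𝒰.H2 M :=
  QuotientAddGroup.lift _ ((𝒰.H2π M).toAddMonoidHom.comp (toZ₂ 𝒰 M)) (by
    intro c hc
    rw [AddSubgroup.mem_addSubgroupOf] at hc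
    rw [AddMonoidHom.mem_ker, AddMonoidHom.comp_apply]
    exact (𝒰.H2π_eq_zero_iff M _).2 ((mem_B2_iff_mem_B₂ 𝒰 M _).1 hc))

@[simp] lemma toH2_mk (c : ↥(Z2 𝒰 M.ρ)) :
    toH2 𝒰 M (H2mk 𝒰 M.ρ c) = 𝒰.H2π M (toZ₂ 𝒰 M c) := rfl

/-- `𝒰.H2 M → CDArith63.H2 𝒰 M.ρ` -/
def ofH2 : 𝒰.H2 M →+ CDArith63.H2 𝒰 M.ρ :=
  QuotientAddGroup.lift _ ((H2mk 𝒰 M.ρ).comp (ofZ₂ 𝒰 M)) (by
    intro c hc
    rw [AddMonoidHom.mem_ker, AddMonoidHom.comp_apply, H2mk_eq_zero_iff]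
    refine (mem_B2_iff_mem_B₂ 𝒰 M _).2 ?_
    exact hc)

@[simp] lemma ofH2_mk (c : ↥(𝒰.Z₂ M)) :
    ofH2 𝒰 M (𝒰.H2π M c) = H2mk 𝒰 M.ρ (ofZ₂ 𝒰 M c) := rfl

/-- **the comparison** `CDArith63.H2 𝒰 M.ρ ≃+ 𝒰.H2 M`, identity on cocycles -/
def equiv : CDArith63.H2 𝒰 M.ρ ≃+ 𝒰.H2 M where
  toFun := toH2 𝒰 M
  invFun := ofH2 𝒰 M
  left_inv x := by
    obtain ⟨c, rfl⟩ := H2mk_surjective x
    rfl
  right_inv x := by
    obtain ⟨c, rfl⟩ := Submodule.Quotient.mk_surjective _ x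
    rfl
  map_add' := map_add _

@[simp] lemma equiv_mk (c : ↥(Z2 𝒰 M.ρ)) :
    equiv 𝒰 M (H2mk 𝒰 M.ρ c) = 𝒰.H2π M (toZ₂ 𝒰 M c) := rfl

@[simp] lemma equiv_symm_H2π (c : ↥(𝒰.Z₂ M)) :
    (equiv 𝒰 M).symm (𝒰.H2π M c) = H2mk 𝒰 M.ρ (ofZ₂ 𝒰 M c) := rfl

/-- compatibility with coefficient maps (same ring, linear equivariant map) -/
lemma equiv_mapH2 {N : Rep.{u} k G} (φ : M →ₗ[k] N) (hφ : LevelStr.IsEquivariant φ)
    (x : CDArith63.H2 𝒰 M.ρ) :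
    equiv 𝒰 N (mapH2 𝒰 M.ρ N.ρ φ.toAddMonoidHom hφ x) = 𝒰.H2map φ hφ (equiv 𝒰 M x) := by
  obtain ⟨c, rfl⟩ := H2mk_surjective x
  rfl

section Restriction

variable {H : Type u} [Group H] {𝒱 : LevelStr H} {𝒰} {f : H →* G}
  (hf : LevelStr.IsContinuous 𝒱 𝒰 f)

/-- pull-back of `CDArith63` level cocycles along a level-continuous homomorphism -/
def pullZ2 {k' : Type*} [CommRing k'] {A : Type*} [AddCommGroup A] [Module k' A]
    (ρ : Representation k' G A) : ↥(Z2 𝒰 ρ) →+ ↥(Z2 𝒱 (ρ.comp f)) where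
  toFun c := ⟨fun x => c.1 (f x.1, f x.2), by
    refine ⟨hf.isConst₂ c.2.1, ?_⟩
    funext ⟨g, h, j⟩
    have := congr_fun c.2.2 (f g, f h, f j)
    simpa using this⟩
  map_zero' := rfl
  map_add' _ _ := rfl

/-- restriction on `CDArith63.H2` along a level-continuous homomorphism -/
def pullH2 {k' : Type*} [CommRing k'] {A : Type*} [AddCommGroup A] [Module k' A]
    (ρ : Representation k' G A) : CDArith63.H2 𝒰 ρ →+ CDArith63.H2 𝒱 (ρ.comp f) :=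
  QuotientAddGroup.map _ _ (pullZ2 hf ρ) (by
    intro c hc
    rw [AddSubgroup.mem_addSubgroupOf] at hc
    rw [AddSubgroup.mem_comap, AddSubgroup.mem_addSubgroupOf]
    obtain ⟨a, ha, hac⟩ := hc
    refine ⟨a ∘ f, hf.isConst₁ ha, ?_⟩
    funext ⟨g, h⟩
    have := congr_fun hac (f g, f h)
    show d12 (ρ.comp f) (a ∘ f) (g, h) = c.1 (f g, f h)
    simpa using this)

@[simp] lemma pullH2_mk {k' : Type*} [CommRing k'] {A : Type*} [AddCommGroup A] [Module k' A]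
    (ρ : Representation k' G A) (c : ↥(Z2 𝒰 ρ)) :
    pullH2 hf ρ (H2mk 𝒰 ρ c) = H2mk 𝒱 (ρ.comp f) (pullZ2 hf ρ c) := rfl

/-- `pullH2` is `IsContinuous.res₂` under the comparison -/
lemma equiv_pullH2 (M : Rep.{u} k G) (x : CDArith63.H2 𝒰 M.ρ) :
    equiv 𝒱 (Rep.res f M) (pullH2 hf M.ρ x) = hf.res₂ M (equiv 𝒰 M x) := by
  obtain ⟨c, rfl⟩ := H2mk_surjective x
  rfl

/-- `pullH2` commutes with push-forward along equivariant additive maps (any two rings) -/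
lemma pullH2_mapH2 {k' k'' : Type*} [CommRing k'] [CommRing k''] {A B : Type*}
    [AddCommGroup A] [Module k' A] [AddCommGroup B] [Module k'' B]
    (ρA : Representation k' G A) (ρB : Representation k'' G B) (φ : A →+ B)
    (hφ : ∀ g a, φ (ρA g a) = ρB g (φ a)) (x : CDArith63.H2 𝒰 ρA) :
    pullH2 hf ρB (mapH2 𝒰 ρA ρB φ hφ x) =
      mapH2 𝒱 (ρA.comp f) (ρB.comp f) φ (fun h a => hφ (f h) a) (pullH2 hf ρA x) := by
  obtain ⟨c, rfl⟩ := H2mk_surjective x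
  rfl

end Restriction

end Fermat.Agent.S55.Profin15.Adapter63
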