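/-
[PROFIN] 10a (helper15): the Prelude's `sha₁`, `sha₂` in level-cohomology terms.
-/
import Fermat.Agent.S55.Profin15.Restriction

set_option autoImplicit false

open CategoryTheory groupCohomology ExtCitation

namespace Fermat.Agent.S55.Profin15

open Fermat.Agent.Lib.FrobeniusExists

variable (S : Finset Nat.Primes)

/-- the level structure of the local group at the index `v ∈ {∞} ∪ S` -/
noncomputable abbrev locLevels (v : extArithIndex S) : LevelStr (extArithLocalGroups S v) :=
  pullLevels (extArithLoc S v)

/-- the localisation map at `v` in level cohomology, degree `2` -/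
noncomputable abbrev locRes₂ {k : Type} [CommRing k] (M : Rep k GQ) (v : extArithIndex S) :
    (globalLevels S).H2 M →ₗ[k] (locLevels S v).H2 (Rep.res (extArithLoc S v) M) :=
  (isContinuous_pullLevels S (extArithLoc S v)).res₂ M

/-- the localisation map at `v` in level cohomology, degree `1` -/
noncomputable abbrev locRes₁ {k : Type} [CommRing k] (M : Rep k GQ) (v : extArithIndex S) :
    (globalLevels S).H1 M →ₗ[k] (locLevels S v).H1 (Rep.res (extArithLoc S v) M) :=
  (isContinuous_pullLevels S (extArithLoc S v)).res₁ M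

/-- **`sha₂` in level cohomology.** -/
theorem mem_sha₂_iff {k : Type} [CommRing k] (M : Rep k GQ) (x : continuousH2S S M) :
    x ∈ sha₂ S M ↔ ∀ v : extArithIndex S, locRes₂ S M v (continuousH2SEquiv S M x) = 0 := by
  rw [sha₂, LinearMap.mem_ker]
  constructor
  · intro h v
    have hv : locRes₂S S M (extArithLoc S v) x = 0 := by
      have := congr_fun h v
      simpa using this
    rw [locRes₂, ← continuousH2Equiv_locRes₂S, hv, map_zero]
  · intro h
    funext v
    have := h v
    rw [locRes₂, ← continuousH2Equiv_locRes₂S] at this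
    have h0 := (continuousH2Equiv (extArithLoc S v) (Rep.res (extArithLoc S v) M)).injective
      (this.trans (map_zero _).symm)
    simpa using h0

/-- **`sha₁` in level cohomology.** -/
theorem H1ToH1_mem_sha₁_iff {K : Type} [Field K] (A : Rep K GQ) (y : (globalLevels S).H1 A) :
    (globalLevels S).H1ToH1 A y ∈ sha₁ S A ↔ ∀ v : extArithIndex S, locRes₁ S A v y = 0 := by
  rw [sha₁, Submodule.mem_inf, LinearMap.mem_ker]
  have hmem : (globalLevels S).H1ToH1 A y ∈ continuousH1S S A := by
    rw [continuousH1S_eq_range]; exact ⟨y, rfl⟩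
  constructor
  · rintro ⟨_, h⟩ v
    have hv : (locRes (extArithLoc S) A v).hom ((globalLevels S).H1ToH1 A y) = 0 := by
      have := congr_fun h v
      simpa using this
    exact (locRes_H1ToH1_eq_zero_iff S (extArithLoc S) A v y).1 hv
  · intro h
    refine ⟨hmem, ?_⟩
    funext v
    have := (locRes_H1ToH1_eq_zero_iff S (extArithLoc S) A v y).2 (h v)
    simpa using this

/-- every element of `sha₁` comes from level cohomology -/
theorem exists_of_mem_sha₁ {K : Type} [Field K] (A : Rep K GQ) {x : groupCohomology.H1 A}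
    (hx : x ∈ sha₁ S A) : ∃ y : (globalLevels S).H1 A, (globalLevels S).H1ToH1 A y = x := by
  have : x ∈ continuousH1S S A := hx.1
  rw [continuousH1S_eq_range] at this
  exact this

/-- the level-cohomology Tate–Shafarevich groups -/
noncomputable def Sha₁ {K : Type} [Field K] (A : Rep K GQ) : Submodule K ((globalLevels S).H1 A) :=
  ⨅ v : extArithIndex S, LinearMap.ker (locRes₁ S A v)

noncomputable def Sha₂ {k : Type} [CommRing k] (M : Rep k GQ) :
    Submodule k ((globalLevels S).H2 M) :=
  ⨅ v : extArithIndex S, LinearMap.ker (locRes₂ S M v)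

/-- `sha₂ S M ≃ Sha₂ S M` -/
noncomputable def sha₂Equiv {k : Type} [CommRing k] (M : Rep k GQ) :
    ↥(sha₂ S M) ≃ₗ[k] ↥(Sha₂ S M) :=
  (continuousH2SEquiv S M).submoduleMap (sha₂ S M) |>.trans
    (LinearEquiv.ofEq _ _ (by
      ext y
      simp only [Submodule.mem_map, Sha₂, Submodule.mem_iInf, LinearMap.mem_ker]
      constructor
      · rintro ⟨x, hx, rfl⟩
        exact (mem_sha₂_iff S M x).1 hx
      · intro hy
        refine ⟨(continuousH2SEquiv S M).symm y, (mem_sha₂_iff S M _).2 ?_, by simp⟩
        simpa using hy))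

/-- `sha₁ S A ≃ Sha₁ S A` -/
noncomputable def sha₁Equiv {K : Type} [Field K] (A : Rep K GQ) :
    ↥(Sha₁ S A) ≃ₗ[K] ↥(sha₁ S A) :=
  LinearEquiv.ofBijective
    (((globalLevels S).H1ToH1 A).restrict (p := Sha₁ S A) (q := sha₁ S A) (by
      intro y hy
      rw [H1ToH1_mem_sha₁_iff]
      simpa [Sha₁, Submodule.mem_iInf] using hy))
    ⟨by
      intro y y' h
      apply Subtype.ext
      exact (globalLevels S).H1ToH1_injective A (congrArg Subtype.val h),
    by
      rintro ⟨x, hx⟩
      obtain ⟨y, rfl⟩ := exists_of_mem_sha₁ S A hx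
      refine ⟨⟨y, ?_⟩, rfl⟩
      have := (H1ToH1_mem_sha₁_iff S A y).1 hx
      simpa [Sha₁, Submodule.mem_iInf] using this⟩

end Fermat.Agent.S55.Profin15
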