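/-
[53-CONTRACT-LEVEL] (helper15): the plugs of `Contract34` restated in the level cohomology of
`Profin15` (`globalLevels S`, `pullLevels (primeLocalToGlobal q)`), each with a proved `↔`.
Producers may prove the level forms; the top layer may consume the level forms.
-/
import Fermat.Agent.S55.Contract34
import Fermat.Agent.S55.Profin15.Sha

set_option autoImplicit false

open CategoryTheory Module groupCohomology ExtCitation
open Fermat.Agent.S55.Profin15
open Fermat.Agent.Lib.FrobeniusExists (Qb GQ)
open Fermat.Agent.S55.Contract34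

namespace Fermat.Agent.S55.Profin15.Plug

/-! ### Generic: surjectivity of `H2map` in cocycle form -/

section Generic

universe u

variable {k G : Type u} [CommRing k] [Group G] (𝒰 : LevelStr G) {M N : Rep.{u} k G}

lemma surjective_H2map_iff (φ : M →ₗ[k] N) (hφ : LevelStr.IsEquivariant φ) :
    Function.Surjective (𝒰.H2map φ hφ) ↔
      ∀ f : G × G → N, f ∈ 𝒰.Z₂ N →
        ∃ f' : G × G → M, f' ∈ 𝒰.Z₂ M ∧ (fun x => φ (f' x) - f x) ∈ 𝒰.B₂ N := by
  constructor
  · intro h f hf
    obtain ⟨y, hy⟩ := h (𝒰.H2π N ⟨f, hf⟩)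
    obtain ⟨c, rfl⟩ := Submodule.Quotient.mk_surjective _ y
    refine ⟨c.1, c.2, ?_⟩
    have h0 : 𝒰.H2π N (𝒰.Z₂map φ hφ c - ⟨f, hf⟩) = 0 := by
      rw [map_sub, sub_eq_zero]
      exact hy
    exact (𝒰.H2π_eq_zero_iff N _).1 h0
  · intro h y
    obtain ⟨c, rfl⟩ := Submodule.Quotient.mk_surjective _ y
    obtain ⟨f', hf', hb⟩ := h c.1 c.2
    refine ⟨𝒰.H2π M ⟨f', hf'⟩, ?_⟩
    rw [LevelStr.H2map_H2π]
    have h0 : 𝒰.H2π N (𝒰.Z₂map φ hφ ⟨f', hf'⟩ - c) = 0 :=
      (𝒰.H2π_eq_zero_iff N _).2 hb
    rw [map_sub, sub_eq_zero] at h0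
    exact h0

end Generic

variable (p : ℕ) [Fact p.Prime] (S : Finset Nat.Primes)

/-! ### (P1), (P2): right exactness -/

/-- (P1) in level cohomology: `H²(globalLevels S; -)` preserves surjections. -/
def GlobalRightExactL : Prop :=
  ∀ (M N : Rep.{0} (ZMod p) GQ) [FiniteDimensional (ZMod p) M] [FiniteDimensional (ZMod p) N],
    IsSRep p S M → IsSRep p S N → ∀ g : M ⟶ N, Function.Surjective g.hom →
      Function.Surjective ((globalLevels S).H2map g.hom.toLinearMap (LevelStr.isEquivariant_hom g))

theorem globalRightExact_iff : GlobalRightExact p S ↔ GlobalRightExactL p S := by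
  constructor
  · intro h M N _ _ hM hN g hg
    rw [surjective_H2map_iff]
    intro f hf
    rw [← levelCocyclesS₂_eq] at hf
    obtain ⟨f', hf', hb⟩ := h M N hM hN g hg f hf
    rw [levelCocyclesS₂_eq] at hf'
    rw [levelCoboundariesS₂_eq] at hb
    exact ⟨f', hf', hb⟩
  · intro h M N _ _ hM hN g hg f hf
    have h' := (surjective_H2map_iff (globalLevels S) _ _).1 (h M N hM hN g hg)
    rw [levelCocyclesS₂_eq] at hf
    obtain ⟨f', hf', hb⟩ := h' f hf
    rw [← levelCocyclesS₂_eq] at hf'
    rw [← levelCoboundariesS₂_eq] at hb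
    exact ⟨f', hf', hb⟩

/-- (P2) in level cohomology: `H²(pullLevels r_q; -)` preserves surjections. -/
def LocalRightExactL (q : Nat.Primes) : Prop :=
  ∀ (M N : Rep.{0} (ZMod p) (primeLocalGaloisGroup q))
    [FiniteDimensional (ZMod p) M] [FiniteDimensional (ZMod p) N],
    IsLocRep p q M → IsLocRep p q N → ∀ g : M ⟶ N, Function.Surjective g.hom →
      Function.Surjective ((pullLevels (primeLocalToGlobal q)).H2map g.hom.toLinearMap
        (LevelStr.isEquivariant_hom g))

theorem localRightExact_iff (q : Nat.Primes) : LocalRightExact p q ↔ LocalRightExactL p q := by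
  constructor
  · intro h M N _ _ hM hN g hg
    rw [surjective_H2map_iff]
    intro f hf
    rw [← levelCocycles₂_eq] at hf
    obtain ⟨f', hf', hb⟩ := h M N hM hN g hg f hf
    rw [levelCocycles₂_eq] at hf'
    rw [levelCoboundaries₂_eq] at hb
    exact ⟨f', hf', hb⟩
  · intro h M N _ _ hM hN g hg f hf
    have h' := (surjective_H2map_iff (pullLevels (primeLocalToGlobal q)) _ _).1
      (h M N hM hN g hg)
    rw [levelCocycles₂_eq] at hf
    obtain ⟨f', hf', hb⟩ := h' f hf
    rw [← levelCocycles₂_eq] at hf'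
    rw [← levelCoboundaries₂_eq] at hb
    exact ⟨f', hf', hb⟩

/-! ### (P3)+(P4): reciprocity -/

/-- the localisation map at `q` in level cohomology -/
noncomputable abbrev locq (q : Nat.Primes) (M : Rep.{0} (ZMod p) GQ) :
    (globalLevels S).H2 M →ₗ[ZMod p]
      (pullLevels (primeLocalToGlobal q)).H2 (Rep.res (primeLocalToGlobal q) M) :=
  (isContinuous_pullLevels S (primeLocalToGlobal q)).res₂ M

lemma continuousH2Equiv_locRes₂S' (q : Nat.Primes) (M : Rep.{0} (ZMod p) GQ)
    (x : continuousH2S S M) :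
    continuousH2Equiv (primeLocalToGlobal q) (Rep.res (primeLocalToGlobal q) M)
      (locRes₂S S M (primeLocalToGlobal q) x) = locq p S q M (continuousH2SEquiv S M x) :=
  continuousH2Equiv_locRes₂S S (primeLocalToGlobal q) M x

/-- (P3)+(P4) in level cohomology. -/
def ReciprocityL : Prop :=
  ∃ lam : ∀ q : ↥S, (pullLevels (primeLocalToGlobal q.1)).H2
      (Rep.res (primeLocalToGlobal q.1) (mu p)) →ₗ[ZMod p] ZMod p,
    (∀ q, lam q ≠ 0) ∧
    ∀ x : (globalLevels S).H2 (mu p), ∑ q : ↥S, lam q (locq p S q.1 (mu p) x) = 0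

theorem reciprocity_iff : Reciprocity p S ↔ ReciprocityL p S := by
  constructor
  · rintro ⟨lam, hne, hsum⟩
    refine ⟨fun q => (lam q) ∘ₗ
      (continuousH2Equiv (primeLocalToGlobal q.1) (Rep.res (primeLocalToGlobal q.1) (mu p))).symm.toLinearMap,
      fun q h0 => hne q ?_, fun x => ?_⟩
    · refine LinearMap.ext fun y => ?_
      have := LinearMap.congr_fun h0 (continuousH2Equiv _ _ y)
      simpa using this
    · have := hsum ((continuousH2SEquiv S (mu p)).symm x)
      rw [← this]
      refine Finset.sum_congr rfl fun q _ => ?_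
      simp only [LinearMap.comp_apply, LinearEquiv.coe_coe]
      rw [← (continuousH2SEquiv S (mu p)).apply_symm_apply x, ← continuousH2Equiv_locRes₂S',
        LinearEquiv.symm_apply_apply, LinearEquiv.apply_symm_apply]
  · rintro ⟨lam, hne, hsum⟩
    refine ⟨fun q => (lam q) ∘ₗ
      (continuousH2Equiv (primeLocalToGlobal q.1) (Rep.res (primeLocalToGlobal q.1) (mu p))).toLinearMap,
      fun q h0 => hne q ?_, fun x => ?_⟩
    · refine LinearMap.ext fun y => ?_
      have := LinearMap.congr_fun h0 ((continuousH2Equiv _ _).symm y)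
      simpa using this
    · have := hsum (continuousH2SEquiv S (mu p) x)
      rw [← this]
      refine Finset.sum_congr rfl fun q _ => ?_
      simp only [LinearMap.comp_apply, LinearEquiv.coe_coe]
      rw [continuousH2Equiv_locRes₂S']

/-! ### (P5): local dimension bound -/

/-- (P5) in level cohomology. -/
def LocalDimL : Prop :=
  ∀ q : ↥S, ∀ U ∈ (globalLevels S).levels, (∀ s ∈ U, (mu p).ρ s = 1) →
    Module.Finite (ZMod p)
      ((pullLevels (primeLocalToGlobal q.1)).H2 (Rep.res (primeLocalToGlobal q.1) (perm p U))) ∧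
    finrank (ZMod p)
      ((pullLevels (primeLocalToGlobal q.1)).H2 (Rep.res (primeLocalToGlobal q.1) (perm p U))) ≤
      Nat.card (DoubleCoset.Quotient ((primeLocalToGlobal q.1).range : Set GQ) (U : Set GQ))

theorem localDim_iff : LocalDim p S ↔ LocalDimL p S := by
  constructor
  · intro h q U hU hmu
    obtain ⟨hfin, hle⟩ := h q U hU hmu
    let e := continuousH2Equiv (primeLocalToGlobal q.1)
      (Rep.res (primeLocalToGlobal q.1) (perm p U))
    exact ⟨Module.Finite.equiv e, by rw [← e.finrank_eq]; exact hle⟩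
  · intro h q U hU hmu
    obtain ⟨hfin, hle⟩ := h q U hU hmu
    let e := continuousH2Equiv (primeLocalToGlobal q.1)
      (Rep.res (primeLocalToGlobal q.1) (perm p U))
    exact ⟨Module.Finite.equiv e.symm, by rw [e.finrank_eq]; exact hle⟩

/-! ### (P6): the cokernel of the total localisation map -/

/-- the total localisation map at the finite places of `S` in level cohomology -/
noncomputable def locTotal (M : Rep.{0} (ZMod p) GQ) :
    (globalLevels S).H2 M →ₗ[ZMod p]
      ∀ q : ↥S, (pullLevels (primeLocalToGlobal q.1)).H2 (Rep.res (primeLocalToGlobal q.1) M) :=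
  LinearMap.pi fun q : ↥S => locq p S q.1 M

/-- (P6) in level cohomology. -/
def GlobalCokerDimL : Prop :=
  ∀ U ∈ (globalLevels S).levels, (∀ s ∈ U, (mu p).ρ s = 1) →
    Module.Finite (ZMod p) ((globalLevels S).H2 (perm p U)) ∧
    ∑ q : ↥S, finrank (ZMod p)
        ((pullLevels (primeLocalToGlobal q.1)).H2
          (Rep.res (primeLocalToGlobal q.1) (perm p U))) ≤
      finrank (ZMod p) (LinearMap.range (locTotal p S (perm p U))) + 1

/-- the product of the local comparison equivalences -/
noncomputable def piEquiv (M : Rep.{0} (ZMod p) GQ) :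
    (∀ q : ↥S, continuousH2 (primeLocalToGlobal q.1) (Rep.res (primeLocalToGlobal q.1) M))
      ≃ₗ[ZMod p]
    (∀ q : ↥S, (pullLevels (primeLocalToGlobal q.1)).H2 (Rep.res (primeLocalToGlobal q.1) M)) :=
  LinearEquiv.piCongrRight fun q : ↥S =>
    continuousH2Equiv (primeLocalToGlobal q.1) (Rep.res (primeLocalToGlobal q.1) M)

lemma piEquiv_pi_locRes₂S (M : Rep.{0} (ZMod p) GQ) (x : continuousH2S S M) :
    piEquiv p S M ((LinearMap.pi fun q : ↥S => locRes₂S S M (primeLocalToGlobal q.1)) x) =
      locTotal p S M (continuousH2SEquiv S M x) := by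
  funext q
  exact continuousH2Equiv_locRes₂S' p S q.1 M x

lemma finrank_range_eq (M : Rep.{0} (ZMod p) GQ) :
    finrank (ZMod p)
      (LinearMap.range (LinearMap.pi fun q : ↥S => locRes₂S S M (primeLocalToGlobal q.1))) =
    finrank (ZMod p) (LinearMap.range (locTotal p S M)) := by
  have hmap : (LinearMap.range
      (LinearMap.pi fun q : ↥S => locRes₂S S M (primeLocalToGlobal q.1))).map
        (piEquiv p S M).toLinearMap = LinearMap.range (locTotal p S M) := by
    ext y
    simp only [Submodule.mem_map, LinearMap.mem_range]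
    constructor
    · rintro ⟨_, ⟨x, rfl⟩, rfl⟩
      exact ⟨continuousH2SEquiv S M x, (piEquiv_pi_locRes₂S p S M x).symm⟩
    · rintro ⟨x, rfl⟩
      refine ⟨_, ⟨(continuousH2SEquiv S M).symm x, rfl⟩, ?_⟩
      rw [LinearEquiv.coe_coe, piEquiv_pi_locRes₂S, LinearEquiv.apply_symm_apply]
  rw [← hmap]
  exact ((piEquiv p S M).submoduleMap _).finrank_eq

theorem globalCokerDim_iff : GlobalCokerDim p S ↔ GlobalCokerDimL p S := by
  have key : ∀ U : Subgroup GQ,
      (∑ q : ↥S, finrank (ZMod p) (continuousH2 (primeLocalToGlobal q.1)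
        (Rep.res (primeLocalToGlobal q.1) (perm p U)))) =
      ∑ q : ↥S, finrank (ZMod p) ((pullLevels (primeLocalToGlobal q.1)).H2
          (Rep.res (primeLocalToGlobal q.1) (perm p U))) := fun U =>
    Finset.sum_congr rfl fun q _ => (continuousH2Equiv _ _).finrank_eq
  constructor
  · intro h U hU hmu
    obtain ⟨hfin, hle⟩ := h U hU hmu
    refine ⟨Module.Finite.equiv (continuousH2SEquiv S (perm p U)), ?_⟩
    rw [← key, ← finrank_range_eq]
    exact hle
  · intro h U hU hmu
    obtain ⟨hfin, hle⟩ := h U hU hmu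
    refine ⟨Module.Finite.equiv (continuousH2SEquiv S (perm p U)).symm, ?_⟩
    rw [key, finrank_range_eq]
    exact hle

/-! ### (P7): PLUG-HILBERT -/

/-- the projection `𝔽_p[G/V] → 𝔽_p[G/U]` is equivariant -/
lemma isEquivariant_permProj {U V : Subgroup GQ} (h : V ≤ U) :
    LevelStr.IsEquivariant (A := perm p V) (B := perm p U) (permProj p h) := by
  intro g a
  induction a using MonoidAlgebra.induction_linear with
  | zero => simp
  | add x y hx hy => simp only [map_add, hx, hy]
  | single x r =>
    show permProj p h (Representation.ofMulAction _ _ _ g (MonoidAlgebra.single x r)) =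
      Representation.ofMulAction _ _ _ g (permProj p h (MonoidAlgebra.single x r))
    rw [Representation.ofMulAction_single, permProj, MonoidAlgebra.mapDomainLinearMap_single,
      MonoidAlgebra.mapDomainLinearMap_single, Representation.ofMulAction_single]
    congr 1
    induction x using QuotientGroup.induction_on
    rfl

/-- (P7) in level cohomology: the projection kills `Sha₂`. -/
def HilbertPlugL : Prop :=
  ∀ U ∈ (globalLevels S).levels, ∃ V ∈ (globalLevels S).levels, ∃ h : V ≤ U,
    ∀ x ∈ Sha₂ S (perm p V),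
      (globalLevels S).H2map (permProj p h) (isEquivariant_permProj p h) x = 0

lemma mem_Sha₂_iff {k : Type} [CommRing k] (M : Rep k GQ) (x : continuousH2S S M) :
    continuousH2SEquiv S M x ∈ Sha₂ S M ↔ x ∈ sha₂ S M := by
  rw [mem_sha₂_iff]
  simp only [Sha₂, Submodule.mem_iInf, LinearMap.mem_ker]

theorem hilbertPlug_iff : HilbertPlug p S ↔ HilbertPlugL p S := by
  constructor
  · intro H U hU
    obtain ⟨V, hV, h, hf⟩ := H U hU
    refine ⟨V, hV, h, fun x hx => ?_⟩
    obtain ⟨c, rfl⟩ := Submodule.Quotient.mk_surjective _ x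
    have hc : (c : GQ × GQ → perm p V) ∈ levelCocyclesS₂ S (perm p V) := by
      rw [levelCocyclesS₂_eq]; exact c.2
    have hsha : continuousH2Sπ S (perm p V) ⟨c.1, hc⟩ ∈ sha₂ S (perm p V) := by
      rw [← mem_Sha₂_iff]
      exact hx
    have := hf ⟨c.1, hc⟩ hsha
    rw [levelCoboundariesS₂_eq] at this
    exact ((globalLevels S).H2π_eq_zero_iff (perm p U) _).2 this
  · intro H U hU
    obtain ⟨V, hV, h, hx⟩ := H U hU
    refine ⟨V, hV, h, fun f hf => ?_⟩
    have hc : (f : GQ × GQ → perm p V) ∈ (globalLevels S).Z₂ (perm p V) := by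
      rw [← levelCocyclesS₂_eq]; exact f.2
    have hsha : (globalLevels S).H2π (perm p V) ⟨f.1, hc⟩ ∈ Sha₂ S (perm p V) :=
      (mem_Sha₂_iff S (perm p V) (continuousH2Sπ S (perm p V) f)).2 hf
    have := hx _ hsha
    rw [LevelStr.H2map_H2π, LevelStr.H2π_eq_zero_iff] at this
    rw [levelCoboundariesS₂_eq]
    exact this

/-! ### all plugs, and the conclusion -/

/-- all plugs in level cohomology -/
def PlugsL : Prop :=
  GlobalRightExactL p S ∧ (∀ q ∈ S, LocalRightExactL p q) ∧ ReciprocityL p S ∧
    LocalDimL p S ∧ GlobalCokerDimL p S ∧ HilbertPlugL p S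

theorem plugs_iff : Plugs p S ↔ PlugsL p S := by
  unfold Plugs PlugsL
  rw [globalRightExact_iff, reciprocity_iff, localDim_iff, globalCokerDim_iff, hilbertPlug_iff]
  simp only [localRightExact_iff]

/-- the conclusion of the top layer in level cohomology -/
def DimConclusionL (M : Rep.{0} (ZMod p) GQ) : Prop :=
  FiniteDimensional (ZMod p) (Sha₁ S (M.dualTwist (cycloChar p))) ∧
  FiniteDimensional (ZMod p) (Sha₂ S M) ∧
  finrank (ZMod p) (Sha₁ S (M.dualTwist (cycloChar p))) = finrank (ZMod p) (Sha₂ S M)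

theorem dimConclusion_iff (M : Rep.{0} (ZMod p) GQ) :
    DimConclusion p S M ↔ DimConclusionL p S M := by
  let e₁ := sha₁Equiv S (M.dualTwist (cycloChar p))
  let e₂ := sha₂Equiv S M
  constructor
  · rintro ⟨h1, h2, h⟩
    exact ⟨Module.Finite.equiv e₁.symm, Module.Finite.equiv e₂,
      by rw [e₁.finrank_eq, ← e₂.finrank_eq]; exact h⟩
  · rintro ⟨h1, h2, h⟩
    exact ⟨Module.Finite.equiv e₁, Module.Finite.equiv e₂.symm,
      by rw [← e₁.finrank_eq, e₂.finrank_eq]; exact h⟩

/-- the top statement, consumed and produced in level cohomology -/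
theorem topStatement_of_level
    (H : ∀ (p : ℕ) [Fact p.Prime], p ≠ 2 → ∀ S : Finset Nat.Primes, pPrime p ∈ S → PlugsL p S →
      ∀ (M : Rep.{0} (ZMod p) GQ) [FiniteDimensional (ZMod p) M], IsSRep p S M →
        DimConclusionL p S M) : TopStatement := by
  intro p _ hp2 S hpS hplugs M _ hM
  exact (dimConclusion_iff p S M).2 (H p hp2 S hpS ((plugs_iff p S).1 hplugs) M hM)

/-- the arithmetic statement, produced in level cohomology -/
theorem arithStatement_of_level
    (H : ∀ (p : ℕ) [Fact p.Prime], p ≠ 2 → ∀ S : Finset Nat.Primes, pPrime p ∈ S → PlugsL p S) :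
    ArithStatement := by
  intro p _ hp2 S hpS
  exact (plugs_iff p S).2 (H p hp2 S hpS)

end Fermat.Agent.S55.Profin15.Plug
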