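/-
[53-CONTRACT-LEVEL] (helper15): level-cohomology twins for the amended contract `Contract34b`
(`HilbertCount`, `PlugsCount`, `TopStatementCount`, `ArithStatementCount`).
-/
import Fermat.Agent.S55.Contract34b
import Fermat.Agent.S55.Profin15.Contract

set_option autoImplicit false

open CategoryTheory Module groupCohomology ExtCitation
open Fermat.Agent.S55.Profin15
open Fermat.Agent.Lib.FrobeniusExists (Qb GQ)
open Fermat.Agent.S55.Contract34

namespace Fermat.Agent.S55.Profin15.Plug

variable (p : ℕ) [Fact p.Prime] (S : Finset Nat.Primes)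

/-- (P7') in level cohomology: `dim Sha₂ 𝔽_p[G/U] ≤ dim Sha₁ 𝔽_p[G/U]`. -/
def HilbertCountL : Prop :=
  ∀ U ∈ (globalLevels S).levels, (∀ s ∈ U, (mu p).ρ s = 1) →
    Module.Finite (ZMod p) (Sha₂ S (perm p U)) ∧
    finrank (ZMod p) (Sha₂ S (perm p U)) ≤ finrank (ZMod p) (Sha₁ S (perm p U))

theorem hilbertCount_iff : HilbertCount p S ↔ HilbertCountL p S := by
  constructor
  · intro h U hU hmu
    obtain ⟨hfin, hle⟩ := h U hU hmu
    let e₁ := sha₁Equiv S (perm p U)
    let e₂ := sha₂Equiv S (perm p U)
    exact ⟨Module.Finite.equiv e₂, by rw [← e₂.finrank_eq, e₁.finrank_eq]; exact hle⟩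
  · intro h U hU hmu
    obtain ⟨hfin, hle⟩ := h U hU hmu
    let e₁ := sha₁Equiv S (perm p U)
    let e₂ := sha₂Equiv S (perm p U)
    exact ⟨Module.Finite.equiv e₂.symm, by rw [e₂.finrank_eq, ← e₁.finrank_eq]; exact hle⟩

/-- all plugs (count form) in level cohomology -/
def PlugsCountL : Prop :=
  GlobalRightExactL p S ∧ (∀ q ∈ S, LocalRightExactL p q) ∧ ReciprocityL p S ∧
    LocalDimL p S ∧ GlobalCokerDimL p S ∧ HilbertCountL p S

theorem plugsCount_iff : PlugsCount p S ↔ PlugsCountL p S := by
  unfold PlugsCount PlugsCountL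
  rw [globalRightExact_iff, reciprocity_iff, localDim_iff, globalCokerDim_iff, hilbertCount_iff]
  simp only [localRightExact_iff]

/-- the top statement (count form), consumed and produced in level cohomology -/
theorem topStatementCount_of_level
    (H : ∀ (p : ℕ) [Fact p.Prime], p ≠ 2 → ∀ S : Finset Nat.Primes, pPrime p ∈ S →
      PlugsCountL p S → ∀ (M : Rep.{0} (ZMod p) GQ) [FiniteDimensional (ZMod p) M],
        IsSRep p S M → DimConclusionL p S M) : TopStatementCount := by
  intro p _ hp2 S hpS hplugs M _ hM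
  exact (dimConclusion_iff p S M).2 (H p hp2 S hpS ((plugsCount_iff p S).1 hplugs) M hM)

/-- the arithmetic statement (count form), produced in level cohomology -/
theorem arithStatementCount_of_level
    (H : ∀ (p : ℕ) [Fact p.Prime], p ≠ 2 → ∀ S : Finset Nat.Primes, pPrime p ∈ S →
      PlugsCountL p S) : ArithStatementCount := by
  intro p _ hp2 S hpS
  exact (plugsCount_iff p S).2 (H p hp2 S hpS)

end Fermat.Agent.S55.Profin15.Plug
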