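/-
[PROFIN] 10a (helper15): for `p` odd the archimedean index drops out of the level-cohomology
Tate–Shafarevich groups `Sha₁`, `Sha₂`: they are cut out by the finite places `q ∈ S` only.
-/
import Fermat.Agent.S55.Profin15.Sha
import Fermat.Agent.S55.ProfinLocal31.Arch

set_option autoImplicit false

open CategoryTheory groupCohomology ExtCitation

namespace Fermat.Agent.S55.Profin15

open Fermat.Agent.Lib.FrobeniusExists
open Fermat.Agent.S55.ProfinLocal31

variable (S : Finset Nat.Primes)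

/-- the level structure of the local group at the finite place `q` -/
noncomputable abbrev primeLevels (q : Nat.Primes) : LevelStr (primeLocalGaloisGroup q) :=
  pullLevels (primeLocalToGlobal q)

/-- localisation at the finite place `q`, degree `1` -/
noncomputable abbrev primeRes₁ {k : Type} [CommRing k] (M : Rep k GQ) (q : Nat.Primes) :
    (globalLevels S).H1 M →ₗ[k] (primeLevels q).H1 (Rep.res (primeLocalToGlobal q) M) :=
  (isContinuous_pullLevels S (primeLocalToGlobal q)).res₁ M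

/-- localisation at the finite place `q`, degree `2` -/
noncomputable abbrev primeRes₂ {k : Type} [CommRing k] (M : Rep k GQ) (q : Nat.Primes) :
    (globalLevels S).H2 M →ₗ[k] (primeLevels q).H2 (Rep.res (primeLocalToGlobal q) M) :=
  (isContinuous_pullLevels S (primeLocalToGlobal q)).res₂ M

/-- `Sha¹` cut out by the finite places of `S` only -/
noncomputable def ShaF₁ {k : Type} [CommRing k] (M : Rep k GQ) :
    Submodule k ((globalLevels S).H1 M) :=
  ⨅ q : ↥S, LinearMap.ker (primeRes₁ S M q.1)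

/-- `Sha²` cut out by the finite places of `S` only -/
noncomputable def ShaF₂ {k : Type} [CommRing k] (M : Rep k GQ) :
    Submodule k ((globalLevels S).H2 M) :=
  ⨅ q : ↥S, LinearMap.ker (primeRes₂ S M q.1)

lemma mem_ShaF₁_iff {k : Type} [CommRing k] (M : Rep k GQ) (x : (globalLevels S).H1 M) :
    x ∈ ShaF₁ S M ↔ ∀ q : ↥S, primeRes₁ S M q.1 x = 0 := by
  simp only [ShaF₁, Submodule.mem_iInf, LinearMap.mem_ker]

lemma mem_ShaF₂_iff {k : Type} [CommRing k] (M : Rep k GQ) (x : (globalLevels S).H2 M) :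
    x ∈ ShaF₂ S M ↔ ∀ q : ↥S, primeRes₂ S M q.1 x = 0 := by
  simp only [ShaF₂, Submodule.mem_iInf, LinearMap.mem_ker]

variable {p : ℕ} [Fact p.Prime]

/-- the archimedean level `H²` vanishes for `p` odd -/
lemma arch_H2_eq_zero (hp2 : p ≠ 2) (M : Rep (ZMod p) GQ)
    (y : (pullLevels archimedeanLoc).H2 (Rep.res archimedeanLoc M)) : y = 0 := by
  have h := Arch.arch_continuousH2_eq_zero hp2 M
    ((continuousH2Equiv archimedeanLoc (Rep.res archimedeanLoc M)).symm y)
  have := congrArg (continuousH2Equiv archimedeanLoc (Rep.res archimedeanLoc M)) h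
  simpa using this

/-- the archimedean level `H¹` vanishes for `p` odd -/
lemma arch_H1_eq_zero (hp2 : p ≠ 2) (M : Rep (ZMod p) GQ)
    (y : (pullLevels archimedeanLoc).H1 (Rep.res archimedeanLoc M)) : y = 0 := by
  apply (pullLevels archimedeanLoc).H1ToH1_injective (Rep.res archimedeanLoc M)
  rw [map_zero]
  exact Arch.arch_H1_eq_zero hp2 M _

/-- **for `p` odd, `Sha₂` is cut out by the finite places only** -/
theorem Sha₂_eq_ShaF₂ (hp2 : p ≠ 2) (M : Rep (ZMod p) GQ) : Sha₂ S M = ShaF₂ S M := by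
  ext x
  simp only [Sha₂, ShaF₂, Submodule.mem_iInf, LinearMap.mem_ker]
  constructor
  · intro h q
    exact h (Sum.inr q)
  · intro h v
    rcases v with u | q
    · exact arch_H2_eq_zero hp2 M _
    · exact h q

/-- **for `p` odd, `Sha₁` is cut out by the finite places only** -/
theorem Sha₁_eq_ShaF₁ (hp2 : p ≠ 2) (A : Rep (ZMod p) GQ) : Sha₁ S A = ShaF₁ S A := by
  ext x
  simp only [Sha₁, ShaF₁, Submodule.mem_iInf, LinearMap.mem_ker]
  constructor
  · intro h q
    exact h (Sum.inr q)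
  · intro h v
    rcases v with u | q
    · exact arch_H1_eq_zero hp2 A _
    · exact h q

/-- `sha₂ S M ≃ ShaF₂ S M` for `p` odd -/
noncomputable def sha₂EquivF (hp2 : p ≠ 2) (M : Rep (ZMod p) GQ) :
    ↥(sha₂ S M) ≃ₗ[ZMod p] ↥(ShaF₂ S M) :=
  (sha₂Equiv S M).trans (LinearEquiv.ofEq _ _ (Sha₂_eq_ShaF₂ S hp2 M))

/-- `ShaF₁ S A ≃ sha₁ S A` for `p` odd -/
noncomputable def sha₁EquivF (hp2 : p ≠ 2) (A : Rep (ZMod p) GQ) :
    ↥(ShaF₁ S A) ≃ₗ[ZMod p] ↥(sha₁ S A) :=
  (LinearEquiv.ofEq _ _ (Sha₁_eq_ShaF₁ S hp2 A).symm).trans (sha₁Equiv S A)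

@[simp] lemma coe_sha₂EquivF (hp2 : p ≠ 2) (M : Rep (ZMod p) GQ) (x : ↥(sha₂ S M)) :
    ((sha₂EquivF S hp2 M x : ↥(ShaF₂ S M)) : (globalLevels S).H2 M) =
      continuousH2SEquiv S M x := rfl

@[simp] lemma coe_sha₁EquivF (hp2 : p ≠ 2) (A : Rep (ZMod p) GQ) (y : ↥(ShaF₁ S A)) :
    ((sha₁EquivF S hp2 A y : ↥(sha₁ S A)) : groupCohomology.H1 A) =
      (globalLevels S).H1ToH1 A y := rfl

end Fermat.Agent.S55.Profin15
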