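/-
[53-CONTRACT-LEVEL] (helper15): for `p` odd, the count plug `HilbertCount` and the conclusion
`DimConclusion` in level cohomology with the FINITE places of `S` only (`ShaF₁`, `ShaF₂`).
-/
import Fermat.Agent.S55.Profin15.ContractB
import Fermat.Agent.S55.Profin15.ShaFinite

set_option autoImplicit false

open CategoryTheory Module groupCohomology ExtCitation
open Fermat.Agent.S55.Profin15
open Fermat.Agent.Lib.FrobeniusExists (Qb GQ)
open Fermat.Agent.S55.Contract34

namespace Fermat.Agent.S55.Profin15.Plug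

variable (p : ℕ) [Fact p.Prime] (S : Finset Nat.Primes)

/-- (P7') in level cohomology, finite places only. -/
def HilbertCountF : Prop :=
  ∀ U ∈ (globalLevels S).levels, (∀ s ∈ U, (mu p).ρ s = 1) →
    Module.Finite (ZMod p) (ShaF₂ S (perm p U)) ∧
    finrank (ZMod p) (ShaF₂ S (perm p U)) ≤ finrank (ZMod p) (ShaF₁ S (perm p U))

theorem hilbertCountL_iff_F (hp2 : p ≠ 2) : HilbertCountL p S ↔ HilbertCountF p S := by
  unfold HilbertCountL HilbertCountF
  refine forall_congr' fun U => forall_congr' fun _ => forall_congr' fun _ => ?_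
  rw [Sha₂_eq_ShaF₂ S hp2, Sha₁_eq_ShaF₁ S hp2]

theorem hilbertCount_iff_F (hp2 : p ≠ 2) : HilbertCount p S ↔ HilbertCountF p S :=
  (hilbertCount_iff p S).trans (hilbertCountL_iff_F p S hp2)

/-- the conclusion of the top layer in level cohomology, finite places only -/
def DimConclusionF (M : Rep.{0} (ZMod p) GQ) : Prop :=
  FiniteDimensional (ZMod p) (ShaF₁ S (M.dualTwist (cycloChar p))) ∧
  FiniteDimensional (ZMod p) (ShaF₂ S M) ∧
  finrank (ZMod p) (ShaF₁ S (M.dualTwist (cycloChar p))) = finrank (ZMod p) (ShaF₂ S M)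

theorem dimConclusionL_iff_F (hp2 : p ≠ 2) (M : Rep.{0} (ZMod p) GQ) :
    DimConclusionL p S M ↔ DimConclusionF p S M := by
  unfold DimConclusionL DimConclusionF
  rw [Sha₂_eq_ShaF₂ S hp2, Sha₁_eq_ShaF₁ S hp2]

theorem dimConclusion_iff_F (hp2 : p ≠ 2) (M : Rep.{0} (ZMod p) GQ) :
    DimConclusion p S M ↔ DimConclusionF p S M :=
  (dimConclusion_iff p S M).trans (dimConclusionL_iff_F p S hp2 M)

end Fermat.Agent.S55.Profin15.Plug
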